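import Mathlib

/-!
# Row S15, node GEO (helper962): Newton polygon of a polynomial of "modular shape"

Mathlib-only.  Let `Φ ∈ ℤ[X][Y]` have the shape of the classical modular polynomial of prime level
`N`:  `Φ = Y^{N+1} + c_N(X) Y^N + … + c_1(X) Y + c_0(X)` with
`c_0 = ± X^{N+1} + (lower)`, `c_N = ± X^N + (lower)`, `deg c_k ≤ N` for `0 < k < N`.

`val_root_of_isModularShape`: for a valuation `v` on a field `K` and `a, b ∈ K` with `Φ(a, b) = 0`
and `1 < v a` (i.e. `a` is not `v`-integral):  `v b = (v a)^N`  or  `(v b)^N = v a`.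

`val_propagate_zero`, `val_propagate_infty`: the resulting propagation of the two residue discs of
the cusps along a Hecke correspondence `T_ℓ` (values `(a, a_p)` at a place `P'` of `X₀(pℓ)`,
values `(a_ℓ, a_{pℓ})` at its image): if `(v a_p)^p = v a` then `(v a_{pℓ})^p = v a_ℓ`, and if
`v a_p = (v a)^p` then `v a_{pℓ} = (v a_ℓ)^p`.
-/

set_option autoImplicit false

open Polynomial

namespace Fermat.Agent.S15.H962

section Valuation

variable {K : Type*} [Field K] {Γ₀ : Type*} [LinearOrderedCommGroupWithZero Γ₀]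
  (v : Valuation K Γ₀)

theorem val_natCast_le_one (n : ℕ) : v (n : K) ≤ 1 := by
  induction n with
  | zero => simp
  | succ n ih =>
    rw [Nat.cast_succ]
    exact (v.map_add _ _).trans (max_le ih (by rw [map_one]))

theorem val_intCast_le_one (n : ℤ) : v (n : K) ≤ 1 := by
  obtain ⟨m, rfl | rfl⟩ := n.eq_nat_or_neg
  · simpa using val_natCast_le_one v m
  · rw [Int.cast_neg, Valuation.map_neg]
    simpa using val_natCast_le_one v m

theorem val_intCast_unit {n : ℤ} (hn : IsUnit n) : v (n : K) = 1 := by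
  rcases Int.isUnit_iff.mp hn with rfl | rfl
  · simp
  · simp

/-- `v (P(a)) ≤ (v a)^d` for `P ∈ ℤ[X]` of degree `≤ d` and `1 ≤ v a`. -/
theorem val_eval_le {a : K} (ha : 1 ≤ v a) (P : ℤ[X]) {d : ℕ} (hd : P.natDegree ≤ d) :
    v (P.eval₂ (Int.castRingHom K) a) ≤ v a ^ d := by
  rw [Polynomial.eval₂_eq_sum_range]
  refine Valuation.map_sum_le v fun i hi => ?_
  have hi' : i ≤ d := (Nat.lt_succ_iff.mp (Finset.mem_range.mp hi)).trans hd
  rw [map_mul, map_pow, eq_intCast]
  calc v ((P.coeff i : ℤ) : K) * v a ^ i ≤ 1 * v a ^ i := by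
        gcongr
        exact val_intCast_le_one v _
    _ = v a ^ i := one_mul _
    _ ≤ v a ^ d := pow_le_pow_right₀ ha hi'

/-- `v (P(a)) = (v a)^d` for `P ∈ ℤ[X]` of degree `d` with leading coefficient `± 1`, `1 < v a`. -/
theorem val_eval_eq {a : K} (ha : 1 < v a) (P : ℤ[X]) {d : ℕ} (hd : P.natDegree = d)
    (hu : IsUnit P.leadingCoeff) :
    v (P.eval₂ (Int.castRingHom K) a) = v a ^ d := by
  have hP : P = P.eraseLead + C P.leadingCoeff * X ^ d := by
    rw [← hd]; exact (Polynomial.eraseLead_add_C_mul_X_pow P).symm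
  have hlead : v ((C P.leadingCoeff * X ^ d : ℤ[X]).eval₂ (Int.castRingHom K) a) = v a ^ d := by
    rw [Polynomial.eval₂_mul, Polynomial.eval₂_C, Polynomial.eval₂_pow, Polynomial.eval₂_X,
      map_mul, map_pow, eq_intCast, val_intCast_unit v hu, one_mul]
  have hlow : v (P.eraseLead.eval₂ (Int.castRingHom K) a) < v a ^ d := by
    rcases Nat.eq_zero_or_pos d with h0 | hpos
    · subst h0
      have : P.eraseLead = 0 := by
        have h1 : P.natDegree = 0 := hd
        rw [Polynomial.eq_C_of_natDegree_eq_zero h1]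
        exact Polynomial.eraseLead_C _
      rw [this, Polynomial.eval₂_zero, map_zero, pow_zero]
      exact zero_lt_one
    · have h1 : P.eraseLead.natDegree ≤ d - 1 := by
        rw [← hd]; exact Polynomial.eraseLead_natDegree_le P
      calc v (P.eraseLead.eval₂ (Int.castRingHom K) a) ≤ v a ^ (d - 1) :=
            val_eval_le v ha.le _ h1
        _ < v a ^ d := pow_lt_pow_right₀ ha (by omega)
  rw [hP, Polynomial.eval₂_add, Valuation.map_add_eq_of_lt_right v (by rw [hlead]; exact hlow),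
    hlead]

/-- A finite sum with a strictly dominant term is nonzero. -/
theorem sum_ne_zero_of_dominant {ι : Type*} [DecidableEq ι] (s : Finset ι) (f : ι → K) (m : ι)
    (hm : m ∈ s) (hfm : f m ≠ 0) (hdom : ∀ i ∈ s, i ≠ m → v (f i) < v (f m)) :
    ∑ i ∈ s, f i ≠ 0 := by
  have hsplit : ∑ i ∈ s, f i = ∑ i ∈ s.erase m, f i + f m := by
    rw [Finset.sum_erase_add _ _ hm]
  have hlt : v (∑ i ∈ s.erase m, f i) < v (f m) :=
    Valuation.map_sum_lt v ((Valuation.ne_zero_iff v).mpr hfm) fun i hi =>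
      hdom i (Finset.mem_of_mem_erase hi) (Finset.ne_of_mem_erase hi)
  intro h0
  have h1 := Valuation.map_add_eq_of_lt_right v hlt
  rw [← hsplit, h0, map_zero] at h1
  exact (Valuation.ne_zero_iff v).mpr hfm h1.symm

end Valuation

/-- The shape of the classical modular polynomial of prime level `N`, as a polynomial in the
outer variable `Y` with coefficients in `ℤ[X]`. -/
structure IsModularShape (N : ℕ) (Φ : ℤ[X][X]) : Prop where
  natDegree_eq : Φ.natDegree = N + 1
  monic : Φ.Monic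
  coeff_zero_natDegree : (Φ.coeff 0).natDegree = N + 1
  coeff_zero_unit : IsUnit (Φ.coeff 0).leadingCoeff
  coeff_top_natDegree : (Φ.coeff N).natDegree = N
  coeff_top_unit : IsUnit (Φ.coeff N).leadingCoeff
  coeff_mid : ∀ k, 0 < k → k < N → (Φ.coeff k).natDegree ≤ N

section Newton

variable {K : Type*} [Field K] {Γ₀ : Type*} [LinearOrderedCommGroupWithZero Γ₀]
  (v : Valuation K Γ₀)

/-- Evaluation of a two-variable integer polynomial at `(a, b)`. -/
noncomputable def eval2 (Φ : ℤ[X][X]) (a b : K) : K :=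
  Φ.eval₂ (Polynomial.eval₂RingHom (Int.castRingHom K) a) b

theorem eval2_eq_sum (Φ : ℤ[X][X]) (a b : K) :
    eval2 Φ a b = ∑ k ∈ Finset.range (Φ.natDegree + 1),
      (Φ.coeff k).eval₂ (Int.castRingHom K) a * b ^ k := by
  unfold eval2
  rw [Polynomial.eval₂_eq_sum_range]
  rfl

/-- **Newton polygon of a polynomial of modular shape.** -/
theorem val_root_of_isModularShape {N : ℕ} (hN : 0 < N) {Φ : ℤ[X][X]} (hΦ : IsModularShape N Φ)
    {a b : K} (ha : 1 < v a) (h : eval2 Φ a b = 0) :
    v b = v a ^ N ∨ v b ^ N = v a := by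
  classical
  set A := v a with hA
  set B := v b with hB
  have hA0 : 0 < A := lt_trans zero_lt_one ha
  have hAN : 1 < A ^ N := one_lt_pow₀ ha hN.ne'
  -- the terms
  set f : ℕ → K := fun k => (Φ.coeff k).eval₂ (Int.castRingHom K) a * b ^ k with hf
  have hsum : ∑ k ∈ Finset.range (N + 2), f k = 0 := by
    rw [← h, eval2_eq_sum, hΦ.natDegree_eq]
  have hvf : ∀ k, v (f k) = v ((Φ.coeff k).eval₂ (Int.castRingHom K) a) * B ^ k := by
    intro k; simp only [hf, map_mul, map_pow]; rfl
  have hf0 : v (f 0) = A ^ (N + 1) := by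
    rw [hvf, pow_zero, mul_one]
    exact val_eval_eq v ha _ hΦ.coeff_zero_natDegree hΦ.coeff_zero_unit
  have hfN : v (f N) = A ^ N * B ^ N := by
    rw [hvf, val_eval_eq v ha _ hΦ.coeff_top_natDegree hΦ.coeff_top_unit]
  have hftop : v (f (N + 1)) = B ^ (N + 1) := by
    rw [hvf]
    have : Φ.coeff (N + 1) = 1 := by
      have := hΦ.monic
      rwa [Polynomial.Monic, Polynomial.leadingCoeff, hΦ.natDegree_eq] at this
    rw [this, Polynomial.eval₂_one, map_one, one_mul]
  have hfmid : ∀ k, 0 < k → k < N → v (f k) ≤ A ^ N * B ^ k := by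
    intro k hk0 hkN
    rw [hvf]
    gcongr
    exact val_eval_le v ha.le _ (hΦ.coeff_mid k hk0 hkN)
  -- `b ≠ 0`
  have hb0 : b ≠ 0 := by
    rintro rfl
    have h1 : ∑ k ∈ Finset.range (N + 2), f k = f 0 := by
      refine Finset.sum_eq_single 0 (fun k _ hk => ?_) (fun h => absurd (Finset.mem_range.mpr
        (by omega)) h)
      simp only [hf, zero_pow hk, mul_zero]
    rw [h1] at hsum
    have : v (f 0) = 0 := by rw [hsum, map_zero]
    rw [hf0] at this
    exact (pow_ne_zero _ hA0.ne') this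
  have hB0 : 0 < B := zero_lt_iff.mpr ((Valuation.ne_zero_iff v).mpr hb0)
  have hAN0 : 0 < A ^ N := pow_pos hA0 N
  have hBk0 : ∀ k, 0 < B ^ k := fun k => pow_pos hB0 k
  by_contra hcon
  push Not at hcon
  obtain ⟨h1, h2⟩ := hcon
  -- three cases
  rcases lt_or_gt_of_ne h1 with hlt | hgt
  · rcases lt_or_gt_of_ne h2 with hlt2 | hgt2
    · -- `B ^ N < A`: the term `k = 0` dominates
      have hBk : ∀ k, k ≤ N → B ^ k < A := by
        intro k hk
        rcases le_or_gt B 1 with hB1 | hB1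
        · exact lt_of_le_of_lt (pow_le_one₀ hB0.le hB1) ha
        · exact lt_of_le_of_lt (pow_le_pow_right₀ hB1.le hk) hlt2
      refine sum_ne_zero_of_dominant v (Finset.range (N + 2)) f 0 (Finset.mem_range.mpr (by omega))
        ?_ ?_ hsum
      · intro h0
        have : v (f 0) = 0 := by rw [h0, map_zero]
        rw [hf0] at this
        exact (pow_ne_zero _ hA0.ne') this
      · intro k hk hk0
        rw [hf0]
        have hk' : k < N + 2 := Finset.mem_range.mp hk
        rcases Nat.lt_or_ge k N with hkN | hkN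
        · calc v (f k) ≤ A ^ N * B ^ k := hfmid k (Nat.pos_of_ne_zero hk0) hkN
            _ < A ^ N * A := mul_lt_mul_of_pos_left (hBk k hkN.le) hAN0
            _ = A ^ (N + 1) := (pow_succ A N).symm
        · rcases Nat.eq_or_lt_of_le hkN with rfl | hkN'
          · rw [hfN]
            calc A ^ N * B ^ N < A ^ N * A := mul_lt_mul_of_pos_left hlt2 hAN0
              _ = A ^ (N + 1) := (pow_succ A N).symm
          · have hkk : k = N + 1 := by omega
            subst hkk
            rw [hftop]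
            calc B ^ (N + 1) = B ^ N * B := pow_succ B N
              _ < A * A := by
                have hB1 : B < A := by simpa using hBk 1 hN
                exact mul_lt_mul'' hlt2 hB1 (pow_nonneg hB0.le _) hB0.le
              _ = A ^ 2 := (sq A).symm
              _ ≤ A ^ (N + 1) := pow_le_pow_right₀ ha.le (by omega)
    · -- `A < B ^ N` and `B < A ^ N`: the term `k = N` dominates
      have hB1 : 1 < B := by
        by_contra hle
        push Not at hle
        exact absurd (lt_of_lt_of_le hgt2 (pow_le_one₀ hB0.le hle)) (not_lt.mpr ha.le)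
      refine sum_ne_zero_of_dominant v (Finset.range (N + 2)) f N (Finset.mem_range.mpr (by omega))
        ?_ ?_ hsum
      · intro h0
        have : v (f N) = 0 := by rw [h0, map_zero]
        rw [hfN] at this
        exact (mul_ne_zero (pow_ne_zero _ hA0.ne') (pow_ne_zero _ hB0.ne')) this
      · intro k hk hkN
        rw [hfN]
        have hk' : k < N + 2 := Finset.mem_range.mp hk
        rcases Nat.lt_or_ge k N with hkN' | hkN'
        · rcases Nat.eq_zero_or_pos k with rfl | hk0
          · rw [hf0]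
            calc A ^ (N + 1) = A ^ N * A := pow_succ A N
              _ < A ^ N * B ^ N := mul_lt_mul_of_pos_left hgt2 hAN0
          · calc v (f k) ≤ A ^ N * B ^ k := hfmid k hk0 hkN'
              _ < A ^ N * B ^ N := mul_lt_mul_of_pos_left (pow_lt_pow_right₀ hB1 hkN') hAN0
        · have hkk : k = N + 1 := by omega
          subst hkk
          rw [hftop]
          calc B ^ (N + 1) = B * B ^ N := pow_succ' B N
            _ < A ^ N * B ^ N := mul_lt_mul_of_pos_right hlt (hBk0 N)
  · -- `A ^ N < B`: the term `k = N + 1` dominates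
    have hB1 : 1 < B := lt_trans hAN hgt
    have hAB : A < B := lt_of_le_of_lt (le_self_pow₀ ha.le hN.ne') hgt
    refine sum_ne_zero_of_dominant v (Finset.range (N + 2)) f (N + 1)
      (Finset.mem_range.mpr (by omega)) ?_ ?_ hsum
    · intro h0
      have : v (f (N + 1)) = 0 := by rw [h0, map_zero]
      rw [hftop] at this
      exact (pow_ne_zero _ hB0.ne') this
    · intro k hk hkN
      rw [hftop]
      have hk' : k < N + 2 := Finset.mem_range.mp hk
      have hkN1 : k ≤ N := by omega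
      rcases Nat.eq_zero_or_pos k with rfl | hk0
      · rw [hf0]
        exact pow_lt_pow_left₀ hAB hA0.le (by omega)
      · rcases Nat.eq_or_lt_of_le hkN1 with rfl | hkN'
        · rw [hfN]
          calc A ^ k * B ^ k < B * B ^ k := mul_lt_mul_of_pos_right hgt (hBk0 k)
            _ = B ^ (k + 1) := (pow_succ' B k).symm
        · calc v (f k) ≤ A ^ N * B ^ k := hfmid k hk0 hkN'
            _ < B * B ^ k := mul_lt_mul_of_pos_right hgt (hBk0 k)
            _ = B ^ (k + 1) := (pow_succ' B k).symm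
            _ ≤ B ^ (N + 1) := pow_le_pow_right₀ hB1.le (by omega)

end Newton

section Propagate

variable {Γ₀ : Type*} [LinearOrderedCommGroupWithZero Γ₀]

theorem pow_eq_pow_iff_of_one_lt {A : Γ₀} (hA : 1 < A) {m n : ℕ} : A ^ m = A ^ n ↔ m = n :=
  (pow_right_strictMono₀ hA).injective.eq_iff

theorem one_lt_of_pow_eq {A X : Γ₀} (hA : 1 < A) {k : ℕ} (h : X ^ k = A) : 1 < X := by
  by_contra hle
  push Not at hle
  have : X ^ k ≤ 1 := pow_le_one₀ zero_le hle
  rw [h] at this
  exact absurd hA (not_lt.mpr this)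

/-- `a * b ≠ a` for `a > 0`, `b ≥ 2`. -/
theorem mul_ne_self_of_two_le {a b : ℕ} (ha : 0 < a) (hb : 2 ≤ b) : a * b ≠ a := by
  intro h
  have : a * 2 ≤ a * b := Nat.mul_le_mul_left a hb
  omega

/-- `a * b ≠ 1` for `b ≥ 2`. -/
theorem mul_ne_one_of_two_le {a b : ℕ} (hb : 2 ≤ b) : a * b ≠ 1 := by
  intro h
  have := Nat.eq_one_of_mul_eq_one_left h
  omega

/-- **Propagation of the residue disc of the cusp `0`** along a Hecke correspondence.
`A = v(j)`, `Ap = v(j_p)` at a place of `X₀(pℓ)`; `B = v(j_ℓ)`, `C = v(j_{pℓ})`. -/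
theorem val_propagate_zero {p ℓ : ℕ} (hp : 2 ≤ p) (hℓ : 2 ≤ ℓ) (hpℓ : p ≠ ℓ) {A Ap B C : Γ₀}
    (hA : 1 < A) (hAp : Ap ^ p = A)
    (hB : B = A ^ ℓ ∨ B ^ ℓ = A)
    (hC₁ : C = Ap ^ ℓ ∨ C ^ ℓ = Ap)
    (hC₂ : C = B ^ p ∨ C ^ p = B) : C ^ p = B := by
  have hAp1 : 1 < Ap := one_lt_of_pow_eq hA hAp
  have hp0 : 0 < p := by omega
  have hℓ0 : 0 < ℓ := by omega
  rcases hC₂ with hC | hC
  swap
  · exact hC
  exfalso
  rcases hB with hB | hB
  · -- `C = Ap ^ (ℓ * (p * p))`
    have hCp : C = Ap ^ (ℓ * (p * p)) := by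
      rw [hC, hB, ← hAp, ← pow_mul, ← pow_mul]
      congr 1
      ring
    rcases hC₁ with h1 | h1
    · rw [hCp] at h1
      have := (pow_eq_pow_iff_of_one_lt hAp1).mp h1
      exact mul_ne_self_of_two_le hℓ0 (le_trans hp (Nat.le_mul_of_pos_left p hp0)) this
    · rw [hCp, ← pow_mul] at h1
      have := (pow_eq_pow_iff_of_one_lt hAp1).mp (h1.trans (pow_one Ap).symm)
      exact mul_ne_one_of_two_le hℓ this
  · rcases hC₁ with h1 | h1
    · -- `C ^ (p * ℓ)` computed in two ways
      have e1 : C ^ (p * ℓ) = Ap ^ (p * (p * p)) := by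
        rw [hC, ← pow_mul, show p * (p * ℓ) = ℓ * (p * p) by ring, pow_mul, hB, ← hAp, ← pow_mul]
      have e2 : C ^ (p * ℓ) = Ap ^ (p * (ℓ * ℓ)) := by
        rw [h1, ← pow_mul]
        congr 1
        ring
      have := (pow_eq_pow_iff_of_one_lt hAp1).mp (e1.symm.trans e2)
      have h3 : p * p = ℓ * ℓ := Nat.eq_of_mul_eq_mul_left hp0 this
      exact hpℓ (Nat.mul_self_inj.mp h3)
    · have e1 : C ^ ℓ = Ap ^ (p * p) := by
        rw [hC, ← pow_mul, mul_comm, pow_mul, hB, ← hAp, ← pow_mul]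
      have := (pow_eq_pow_iff_of_one_lt hAp1).mp (e1.symm.trans (h1.trans (pow_one Ap).symm))
      exact mul_ne_one_of_two_le hp this

/-- **Propagation of the residue disc of the cusp `∞`** along a Hecke correspondence. -/
theorem val_propagate_infty {p ℓ : ℕ} (hp : 2 ≤ p) (hℓ : 2 ≤ ℓ) (hpℓ : p ≠ ℓ) {A Ap B C : Γ₀}
    (hA : 1 < A) (hAp : Ap = A ^ p)
    (hB : B = A ^ ℓ ∨ B ^ ℓ = A)
    (hC₁ : C = Ap ^ ℓ ∨ C ^ ℓ = Ap)
    (hC₂ : C = B ^ p ∨ C ^ p = B) : C = B ^ p := by
  have hp0 : 0 < p := by omega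
  have hℓ0 : 0 < ℓ := by omega
  rcases hC₂ with hC | hC
  · exact hC
  exfalso
  rcases hB with hB | hB
  · rcases hC₁ with h1 | h1
    · -- `C ^ p = A ^ ℓ` and `C = A ^ (p ℓ)`
      have e1 : C ^ p = A ^ (ℓ * (p * p)) := by
        rw [h1, hAp, ← pow_mul, ← pow_mul]
        congr 1
        ring
      have := (pow_eq_pow_iff_of_one_lt hA).mp (e1.symm.trans (hC.trans hB))
      exact mul_ne_self_of_two_le hℓ0 (le_trans hp (Nat.le_mul_of_pos_left p hp0)) this
    · have e1 : C ^ (p * ℓ) = A ^ (ℓ * ℓ) := by rw [pow_mul, hC, hB, ← pow_mul]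
      have e2 : C ^ (p * ℓ) = A ^ (p * p) := by rw [mul_comm, pow_mul, h1, hAp, ← pow_mul]
      have := (pow_eq_pow_iff_of_one_lt hA).mp (e1.symm.trans e2)
      exact hpℓ (Nat.mul_self_inj.mp this.symm)
  · have e0 : C ^ (p * ℓ) = A := by rw [pow_mul, hC, hB]
    rcases hC₁ with h1 | h1
    · have e1 : C ^ (p * ℓ) = A ^ (p * ℓ * (p * ℓ)) := by
        rw [h1, hAp, ← pow_mul, ← pow_mul]
        congr 1
        ring
      have := (pow_eq_pow_iff_of_one_lt hA).mp (e1.symm.trans (e0.trans (pow_one A).symm))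
      exact mul_ne_one_of_two_le (le_trans hℓ (Nat.le_mul_of_pos_left ℓ hp0)) this
    · have e1 : C ^ (p * ℓ) = A ^ (p * p) := by rw [mul_comm, pow_mul, h1, hAp, ← pow_mul]
      have := (pow_eq_pow_iff_of_one_lt hA).mp (e1.symm.trans (e0.trans (pow_one A).symm))
      exact mul_ne_one_of_two_le hp this

end Propagate

end Fermat.Agent.S15.H962
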