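import Fermat.Agent.S15.Core.Top

/-!
# Row S15, node GEO (helper962): kernel stability under Hecke operators is FORMAL

The node `Core.GeoStatement p` of `Fermat/Agent/S15/Core/Top.lean` asks, at every multiplicative
prime `q ≠ p`, for a specialisation map `sp` of `J₀(p)` which is

* (i)  injective on torsion of order prime to `q`,
* (ii) with kernel stable under every `T_ℓ`, `ℓ ≠ p, q`,

and such that `sp D = 0`, resp. `sp (D + c) = 0`.

The geometric reduction `sp₀ = reductionModL A M ∘ π^*` supplied by rows S18/S37 is only known to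
satisfy (i).  (The frozen S37 does NOT contain a genuine Hecke-compatibility of the reduction:
its field `hecke_comm` is obtained by the same formal trick as below, and `node_wrd` only
contains the relation for the one operator `T_q` at the residue characteristic `q`.)

This file shows that (ii) costs nothing.  Replace `sp₀` by
`iterSp q sp₀ : z ↦ (h ↦ sp₀ (h z))`, `h` running over all words in the `T_ℓ`, `ℓ ≠ p, q`.  Then

* `iterSp_inj`, `iterSp_hecke` : `iterSp q sp₀` satisfies (i) and (ii) as soon as `sp₀` has (i);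
* `iterSp_eq_zero_of_mem`      : `iterSp q sp₀` kills every element of a subgroup `K` of `J₀(p)`
  which is stable under the `T_ℓ` and killed by `sp₀`.

Consequently (`geoStatement_of_geoParts`) the node GEO follows from `GeoPartsStatement p`: at
each multiplicative prime there is a Hecke-stable subgroup `K` of `J₀(p)` killed by `sp₀`
(`K` = the classes of the divisors `∑ ((P_i) - (P₀))`, `P_i` in the residue disc of the cusp `0`,
plus the same for the cusp `∞`), with `D ∈ K` if `Q ∉ E⁰` and `D + c ∈ K` if `Q ∈ E⁰`.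
-/

set_option autoImplicit false

noncomputable section

open AlgebraicCurve ModularCurve WeierstrassCurve WeierstrassCurve.Affine

namespace Fermat.Agent.S15.H962

open Fermat.Agent.S15.Core

variable {p : ℕ} [NeZero p]

/-- The multiplicative monoid of all words in the Hecke operators `T_ℓ`, `ℓ ≠ p`, `ℓ ≠ q`. -/
def heckeWords (p q : ℕ) [NeZero p] : Submonoid (Module.End ℤ (JZero p)) :=
  Submonoid.closure (goodHecke p {q})

/-- The iterated specialisation map `z ↦ (h ↦ sp₀ (h z))`, `h` a Hecke word. -/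
def iterSp (q : ℕ) {X : Type} [AddCommGroup X] (sp₀ : JZero p →+ X) :
    JZero p →+ (heckeWords p q → X) where
  toFun z h := sp₀ ((h : Module.End ℤ (JZero p)) z)
  map_zero' := by
    funext h
    simp
  map_add' x y := by
    funext h
    simp

@[simp] theorem iterSp_apply (q : ℕ) {X : Type} [AddCommGroup X] (sp₀ : JZero p →+ X)
    (z : JZero p) (h : heckeWords p q) :
    iterSp q sp₀ z h = sp₀ ((h : Module.End ℤ (JZero p)) z) := rfl

theorem iterSp_eq_zero_iff {q : ℕ} {X : Type} [AddCommGroup X] {sp₀ : JZero p →+ X}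
    {z : JZero p} :
    iterSp q sp₀ z = 0 ↔ ∀ h ∈ heckeWords p q, sp₀ (h z) = 0 := by
  constructor
  · intro hz h hh
    exact congrFun hz ⟨h, hh⟩
  · intro hz
    funext h
    exact hz h h.2

/-- `iterSp` kills `z` only if `sp₀` does. -/
theorem sp_eq_zero_of_iterSp_eq_zero {q : ℕ} {X : Type} [AddCommGroup X]
    {sp₀ : JZero p →+ X} {z : JZero p} (hz : iterSp q sp₀ z = 0) : sp₀ z = 0 := by
  have := iterSp_eq_zero_iff.mp hz 1 (one_mem _)
  simpa using this

/-- (i) is inherited by the iterated specialisation. -/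
theorem iterSp_inj {q : ℕ} {X : Type} [AddCommGroup X] {sp₀ : JZero p →+ X}
    (hinj : ∀ (m : ℕ) (z : JZero p), ¬ q ∣ m → m • z = 0 → sp₀ z = 0 → z = 0)
    (m : ℕ) (z : JZero p) (hm : ¬ q ∣ m) (hmz : m • z = 0) (hz : iterSp q sp₀ z = 0) : z = 0 :=
  hinj m z hm hmz (sp_eq_zero_of_iterSp_eq_zero hz)

/-- **(ii) is formal**: the kernel of the iterated specialisation is stable under the `T_ℓ`. -/
theorem iterSp_hecke {q : ℕ} {X : Type} [AddCommGroup X] (sp₀ : JZero p →+ X)
    (T : Module.End ℤ (JZero p)) (hT : T ∈ goodHecke p {q}) (z : JZero p)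
    (hz : iterSp q sp₀ z = 0) : iterSp q sp₀ (T z) = 0 := by
  rw [iterSp_eq_zero_iff] at hz ⊢
  intro h hh
  have hmem : h * T ∈ heckeWords p q := mul_mem hh (Submonoid.subset_closure hT)
  have := hz _ hmem
  rwa [Module.End.mul_apply] at this

/-- A subgroup stable under the `T_ℓ` is stable under all Hecke words. -/
theorem mem_of_mem_heckeWords {q : ℕ} (K : AddSubgroup (JZero p))
    (hK : ∀ T ∈ goodHecke p {q}, ∀ z ∈ K, T z ∈ K)
    {h : Module.End ℤ (JZero p)} (hh : h ∈ heckeWords p q) : ∀ z ∈ K, h z ∈ K := by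
  unfold heckeWords at hh
  induction hh using Submonoid.closure_induction with
  | mem T hT => exact hK T hT
  | one =>
    intro z hz
    simpa using hz
  | mul a b _ _ ha hb =>
    intro z hz
    rw [Module.End.mul_apply]
    exact ha _ (hb z hz)

/-- The iterated specialisation kills every Hecke-stable subgroup killed by `sp₀`. -/
theorem iterSp_eq_zero_of_mem {q : ℕ} {X : Type} [AddCommGroup X] {sp₀ : JZero p →+ X}
    (K : AddSubgroup (JZero p))
    (hK : ∀ T ∈ goodHecke p {q}, ∀ z ∈ K, T z ∈ K)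
    (hsp : ∀ z ∈ K, sp₀ z = 0) {z : JZero p} (hz : z ∈ K) : iterSp q sp₀ z = 0 :=
  iterSp_eq_zero_iff.mpr fun _ hh => hsp _ (mem_of_mem_heckeWords K hK hh z hz)

variable (p)

/-- **Sub-node GEO-PARTS**: what GE-1 + GE-2 + GE-3 really have to deliver.

Same as `Core.GeoStatement p`, except that at each multiplicative prime `q ≠ p`, `A ∣ q`, we ask for

* an additive map `sp₀` out of `J₀(p)` which is injective on torsion of order prime to `q`
  (`reductionModL A M ∘ π^*`, `M = p` for `q ≥ 5`, `M = 3p` for `q = 2`, `M = 2p` for `q = 3`: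
  frozen S18 at level `M` + `π_* π^* = deg π`);  NO Hecke-compatibility of `sp₀` is required;
* a subgroup `K` of `J₀(p)`, stable under all `T_ℓ` (`ℓ ≠ p, q`) and killed by `sp₀`;
* `D ∈ K` if `Q ∉ E⁰`, and `D + c ∈ K` if `Q ∈ E⁰`. -/
def GeoPartsStatement : Prop :=
  ∀ (W : WeierstrassCurve ℤ), W.Δ ≠ 0 →
  ∀ (Q : ((W.map (Int.castRingHom ℚ))⁄(AlgebraicClosure ℚ)).Point),
    (∀ σ : AlgebraicClosure ℚ ≃ₐ[ℚ] AlgebraicClosure ℚ, σ • Q = Q) → addOrderOf Q = p →
  ∀ (P₀ : Place (AlgebraicClosure ℚ) (modularFunctionFieldBar p)) (c : JZero p),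
    IsCuspZero p P₀ → IsDiffClass P₀ (cuspInfty p) c →
  ∃ D : JZero p, (∀ σ : AlgebraicClosure ℚ ≃ₐ[ℚ] AlgebraicClosure ℚ, σ • D = D) ∧
    ∀ q : ℕ, q.Prime → q ≠ p → (q : ℤ) ∣ W.Δ → ¬ (q : ℤ) ∣ W.c₄ →
    ∀ A : ValuationSubring (AlgebraicClosure ℚ), A.LiesOverPrime q →
    ∃ (X : Type) (_ : AddCommGroup X) (sp₀ : JZero p →+ X) (K : AddSubgroup (JZero p)),
      (∀ (m : ℕ) (z : JZero p), ¬ q ∣ m → m • z = 0 → sp₀ z = 0 → z = 0) ∧
      (∀ T ∈ goodHecke p {q}, ∀ z ∈ K, T z ∈ K) ∧
      (∀ z ∈ K, sp₀ z = 0) ∧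
      (¬ W.InZeroComponentAt A Q → D ∈ K) ∧
      (W.InZeroComponentAt A Q → D + c ∈ K)

/-- **GEO from GEO-PARTS** (formal). -/
theorem geoStatement_of_geoParts (h : GeoPartsStatement p) : GeoStatement p := by
  intro W hΔ Q hQfix hQord P₀ c hP₀ hc
  obtain ⟨D, hDfix, hD⟩ := h W hΔ Q hQfix hQord P₀ c hP₀ hc
  refine ⟨D, hDfix, ?_⟩
  intro q hq hqp hqΔ hqc₄ A hA
  obtain ⟨X, instX, sp₀, K, hinj, hK, hsp, hD₀, hDinf⟩ := hD q hq hqp hqΔ hqc₄ A hA
  exact ⟨heckeWords p q → X, inferInstance, iterSp q sp₀, iterSp_inj hinj,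
    fun T hT z hz => iterSp_hecke sp₀ T hT z hz,
    fun hQ => iterSp_eq_zero_of_mem K hK hsp (hD₀ hQ),
    fun hQ => iterSp_eq_zero_of_mem K hK hsp (hDinf hQ)⟩

end Fermat.Agent.S15.H962

end
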