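import Fermat.Agent.S15.H962.GeoK
import Fermat.Agent.S15.H362.CuspHecke
import Fermat.Agent.S15.H542.ModA2
import Fermat.Agent.S15.H722.RedCore
import Fermat.Agent.S15.H602.ModA1

/-!
# Row S15, node GEO-PARTS (a) (helper962): PROPAGATION

`propagation : PropagationStatement p` — the subgroup `K = discK p A P₀` of `J₀(p)` generated by
the classes `cl((P) - (0))`, `P` in the residue disc of the cusp `0` at `A`, and `cl((P) - (∞))`,
`P` in the residue disc of the cusp `∞`, is stable under every Hecke operator `T_ℓ`, `ℓ ≠ p`.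

Proof.  `T_ℓ = α_* β^*` for the two degeneracy maps `α, β : ℚ̄(X₀(p)) → ℚ̄(X₀(pℓ))`
(`α` the inclusion, `β : q ↦ q^ℓ`), so `T_ℓ (P) = ∑_{W ∣_β = P} e_β(W) (W ∣_α)` and, the cusps being
fixed, `T_ℓ ((P) - (0)) = ∑ e_β(W) ((W ∣_α) - (0))`.  It remains to see that `W ∣_α` lies in the
disc of `0` if `W ∣_β` does.  At `W` the four functions `β j, β j_p, α j, α j_p` have values
`a, a', b, b'` with `Φ_ℓ(a, b) = 0`, `Φ_ℓ(a', b') = 0`, `Φ_p(b, b') = 0` (`Φ_m` the modular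
polynomials); the Newton polygons of the `Φ_m` (`val_root_of_isModularShape`) and the arithmetic
lemma `val_propagate_zero` give `v(b')^p = v(b)`, `1 < v(b)`.
-/

set_option autoImplicit false
set_option synthInstance.maxHeartbeats 400000
set_option linter.style.haveILetI false

noncomputable section

open AlgebraicCurve ModularCurve HahnSeries Polynomial

namespace Fermat.Agent.S15.H962

open Fermat.Agent.S15.Core Fermat.Agent.S15.H542
open Fermat.Agent.S15.H362 (Qb FB)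

/-! ### Values along an embedding of function fields -/

section Along

variable {N M : ℕ}

theorem ramificationIndexAlong_pos_h962 (φ : FB N →ₐ[Qb] FB M) (hφ : φ.toRingHom.IsIntegral)
    (W : Place Qb (FB M)) : (0 : ℤ) < (Place.ramificationIndexAlong φ W : ℤ) := by
  have he0 : 0 < Place.ramificationIndexAlong φ W := by
    letI := algebraAlong φ
    haveI := isScalarTower_along φ
    haveI := isIntegral_along φ hφ
    exact Place.ramificationIndex_pos (F := FB N) W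
  exact_mod_cast he0

/-- `φ f` has the value `c` at `W` iff `f` has the value `c` at `W ∣_φ`. -/
theorem hasValueAt_along (φ : FB N →ₐ[Qb] FB M) (hφ : φ.toRingHom.IsIntegral)
    (W : Place Qb (FB M)) (f : FB N) (c : Qb) :
    HasValueAt W (φ f) c ↔ HasValueAt (W.restrictAlong φ hφ) f c := by
  unfold HasValueAt
  have h1 : φ f - algebraMap Qb (FB M) c = φ (f - algebraMap Qb (FB N) c) := by
    rw [map_sub, AlgHom.commutes]
  rw [h1, Place.ord_restrictAlong φ hφ W]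
  exact mul_pos_iff_of_pos_left (ramificationIndexAlong_pos_h962 φ hφ W)

/-- `φ f` is regular at `W` iff `f` is regular at `W ∣_φ`. -/
theorem ord_nonneg_along (φ : FB N →ₐ[Qb] FB M) (hφ : φ.toRingHom.IsIntegral)
    (W : Place Qb (FB M)) (f : FB N) :
    0 ≤ W.ord (φ f) ↔ 0 ≤ (W.restrictAlong φ hφ).ord f := by
  rw [Place.ord_restrictAlong φ hφ W]
  exact mul_nonneg_iff_of_pos_left (ramificationIndexAlong_pos_h962 φ hφ W)

theorem ord_nonneg_of_hasValueAt {P : Place Qb (FB N)} {f : FB N} {c : Qb}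
    (h : HasValueAt P f c) : 0 ≤ P.ord f := by
  have h1 : Fermat.Agent.S15.H722.HasVal P f c := Or.inr h
  exact h1.ord_nonneg

/-- A function which is regular at `P` and not constant has a value at `P`. -/
theorem exists_hasValueAt [NeZero N] (P : Place Qb (FB N)) {f : FB N} (hf : 0 ≤ P.ord f)
    (hne : ∀ c : Qb, f - algebraMap Qb (FB N) c ≠ 0) : ∃ c : Qb, HasValueAt P f c := by
  obtain ⟨c, hc⟩ := Fermat.Agent.S15.H722.exists_hasVal P
    (Fermat.Agent.Lib.FF398.deg_eq_one_FF N P) hf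
  rcases hc with hc | hc
  · exact absurd hc (hne c)
  · exact ⟨c, hc⟩

end Along

/-! ### The modular relations at level `pℓ` -/

section Relations

variable (p ℓ : ℕ) [NeZero p] [NeZero ℓ]

theorem coe_alpha_jBar :
    ((heckeAlphaBar Qb p ℓ (H542.jBar p) : FB (p * ℓ)) : LaurentSeries Qb) = jqModC Qb := by
  rw [coe_heckeAlphaBar, coe_jBar_eq]

theorem coe_beta_jBar :
    ((heckeBetaBar Qb p ℓ (H542.jBar p) : FB (p * ℓ)) : LaurentSeries Qb) =
      qExpand Qb ℓ (jqModC Qb) := by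
  rw [coe_heckeBetaBar, coe_jBar_eq]

theorem coe_alpha_jNBar :
    ((heckeAlphaBar Qb p ℓ (jNBar p) : FB (p * ℓ)) : LaurentSeries Qb) =
      qExpand Qb p (jqModC Qb) := by
  rw [coe_heckeAlphaBar, coe_jNBar_eq]

theorem coe_beta_jNBar :
    ((heckeBetaBar Qb p ℓ (jNBar p) : FB (p * ℓ)) : LaurentSeries Qb) =
      qExpand Qb (p * ℓ) (jqModC Qb) := by
  rw [coe_heckeBetaBar, coe_jNBar_eq, qExpand_qExpand]
  exact qExpand_congr (Nat.mul_comm ℓ p) _

/-- The relations `Φ_ℓ(β j, α j) = 0` and `Φ_ℓ(β j_p, α j_p) = 0`. -/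
theorem exists_rel_level (hℓ : ℓ.Prime) :
    ∃ Φ : ℤ[X][X], IsModularShape ℓ Φ ∧
      eval2 Φ (heckeBetaBar Qb p ℓ (H542.jBar p)) (heckeAlphaBar Qb p ℓ (H542.jBar p)) = 0 ∧
      eval2 Φ (heckeBetaBar Qb p ℓ (jNBar p)) (heckeAlphaBar Qb p ℓ (jNBar p)) = 0 := by
  obtain ⟨Φ, hshape, hrel⟩ := Fermat.Agent.S15.H386.exists_isModularShape.{0} ℓ hℓ
  obtain ⟨-, hrel1⟩ := hrel Qb 1
  obtain ⟨-, hrel2⟩ := hrel Qb p
  rw [qExpand_one_apply, qExpand_congr (one_mul ℓ)] at hrel1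
  refine ⟨Φ, hshape, ?_, ?_⟩
  · rw [← Fermat.Agent.S15.H386.eval2_eq_zero_iff_map
      (algebraMap (FB (p * ℓ)) (LaurentSeries Qb))]
    have h1 : algebraMap (FB (p * ℓ)) (LaurentSeries Qb)
        (heckeBetaBar Qb p ℓ (H542.jBar p)) = qExpand Qb ℓ (jqModC Qb) := coe_beta_jBar p ℓ
    have h2 : algebraMap (FB (p * ℓ)) (LaurentSeries Qb)
        (heckeAlphaBar Qb p ℓ (H542.jBar p)) = jqModC Qb := coe_alpha_jBar p ℓ
    rw [h1, h2]
    exact hrel1
  · rw [← Fermat.Agent.S15.H386.eval2_eq_zero_iff_map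
      (algebraMap (FB (p * ℓ)) (LaurentSeries Qb))]
    have h1 : algebraMap (FB (p * ℓ)) (LaurentSeries Qb)
        (heckeBetaBar Qb p ℓ (jNBar p)) = qExpand Qb (p * ℓ) (jqModC Qb) := coe_beta_jNBar p ℓ
    have h2 : algebraMap (FB (p * ℓ)) (LaurentSeries Qb)
        (heckeAlphaBar Qb p ℓ (jNBar p)) = qExpand Qb p (jqModC Qb) := coe_alpha_jNBar p ℓ
    rw [h1, h2]
    exact hrel2

/-- The relation `Φ_p(α j, α j_p) = 0`. -/
theorem exists_rel_base (hp : p.Prime) :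
    ∃ Φ : ℤ[X][X], IsModularShape p Φ ∧
      eval2 Φ (heckeAlphaBar Qb p ℓ (H542.jBar p)) (heckeAlphaBar Qb p ℓ (jNBar p)) = 0 := by
  obtain ⟨Φ, hshape, hrel, -⟩ := eval2_jBar_jNBar p hp
  refine ⟨Φ, hshape, ?_⟩
  exact (Fermat.Agent.S15.H386.eval2_eq_zero_iff_map
    ((heckeAlphaBar Qb p ℓ : FB p →ₐ[Qb] FB (p * ℓ)) : FB p →+* FB (p * ℓ)) Φ _ _).mpr hrel

end Relations

/-! ### Places of `X₀(pℓ)` over a non-cuspidal place -/

section NonCusp

variable (p ℓ : ℕ) [NeZero p] [NeZero ℓ]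

/-- If `β j`, `β j_p` are regular at `W` then so are `α j`, `α j_p`. -/
theorem ord_alpha_nonneg (hℓ : ℓ.Prime) (W : Place Qb (FB (p * ℓ)))
    (h1 : 0 ≤ W.ord (heckeBetaBar Qb p ℓ (H542.jBar p)))
    (h2 : 0 ≤ W.ord (heckeBetaBar Qb p ℓ (jNBar p))) :
    0 ≤ W.ord (heckeAlphaBar Qb p ℓ (H542.jBar p)) ∧
      0 ≤ W.ord (heckeAlphaBar Qb p ℓ (jNBar p)) := by
  have e1 : H542.jBar p = Fermat.Agent.S15.H362.jBar p := rfl
  have e2 : jNBar p = Fermat.Agent.S15.H362.jLevelBar p := rfl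
  rw [e1] at h1 ⊢
  rw [e2] at h2 ⊢
  constructor
  · by_contra hlt
    rw [not_le, Fermat.Agent.S15.H362.alpha_jBar] at hlt
    obtain ⟨-, h3, -⟩ := Fermat.Agent.S15.H362.cusp_relations_level p ℓ hℓ W (Or.inl hlt)
    rw [← Fermat.Agent.S15.H362.beta_jBar] at h3
    exact absurd h1 (not_le.mpr h3)
  · by_contra hlt
    rw [not_le, Fermat.Agent.S15.H362.alpha_jLevelBar] at hlt
    obtain ⟨-, h3, -⟩ := Fermat.Agent.S15.H362.cusp_relations_level' p ℓ hℓ W (Or.inl hlt)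
    rw [← Fermat.Agent.S15.H362.beta_jLevelBar] at h3
    exact absurd h2 (not_le.mpr h3)

/-- **The local computation.**  Values `a, a'` of `j, j_p` at `W ∣_β` with `1 < v a`, `1 < v a'`
give values `b, b'` at `W ∣_α` related to `a, a'` by the Newton polygons of `Φ_ℓ` and `Φ_p`. -/
theorem exists_values_alpha (hp : p.Prime) (hℓ : ℓ.Prime)
    (hα : HeckeAlphaBarIntegral Qb p ℓ) (hβ : HeckeBetaBarIntegral Qb p ℓ)
    {Γ₀ : Type*} [LinearOrderedCommGroupWithZero Γ₀] (v : Valuation Qb Γ₀)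
    (W : Place Qb (FB (p * ℓ))) {a a' : Qb}
    (ha : HasValueAt (W.restrictAlong (heckeBetaBar Qb p ℓ) hβ) (H542.jBar p) a)
    (ha' : HasValueAt (W.restrictAlong (heckeBetaBar Qb p ℓ) hβ) (jNBar p) a')
    (hva : 1 < v a) (hva' : 1 < v a') :
    ∃ b b' : Qb, HasValueAt (W.restrictAlong (heckeAlphaBar Qb p ℓ) hα) (H542.jBar p) b ∧
      HasValueAt (W.restrictAlong (heckeAlphaBar Qb p ℓ) hα) (jNBar p) b' ∧
      1 < v b ∧ (v b = v a ^ ℓ ∨ v b ^ ℓ = v a) ∧ (v b' = v a' ^ ℓ ∨ v b' ^ ℓ = v a') ∧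
      (v b' = v b ^ p ∨ v b' ^ p = v b) := by
  have hWa : HasValueAt W (heckeBetaBar Qb p ℓ (H542.jBar p)) a :=
    (hasValueAt_along _ hβ W _ a).mpr ha
  have hWa' : HasValueAt W (heckeBetaBar Qb p ℓ (jNBar p)) a' :=
    (hasValueAt_along _ hβ W _ a').mpr ha'
  obtain ⟨h1, h2⟩ := ord_alpha_nonneg p ℓ hℓ W (ord_nonneg_of_hasValueAt hWa) (ord_nonneg_of_hasValueAt hWa')
  obtain ⟨b, hb⟩ := exists_hasValueAt (W.restrictAlong (heckeAlphaBar Qb p ℓ) hα)
    ((ord_nonneg_along _ hα W _).mp h1) (Fermat.Agent.S15.H602.jBar_sub_ne_zero p)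
  obtain ⟨b', hb'⟩ := exists_hasValueAt (W.restrictAlong (heckeAlphaBar Qb p ℓ) hα)
    ((ord_nonneg_along _ hα W _).mp h2) (Fermat.Agent.S15.H602.jNBar_sub_ne_zero p)
  have hWb : HasValueAt W (heckeAlphaBar Qb p ℓ (H542.jBar p)) b :=
    (hasValueAt_along _ hα W _ b).mpr hb
  have hWb' : HasValueAt W (heckeAlphaBar Qb p ℓ (jNBar p)) b' :=
    (hasValueAt_along _ hα W _ b').mpr hb'
  obtain ⟨Φℓ, hshℓ, r1, r2⟩ := exists_rel_level p ℓ hℓ
  obtain ⟨Φp, hshp, r3⟩ := exists_rel_base p ℓ hp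
  have e1 : eval2 Φℓ a b = 0 := by
    rw [← ev0_phiK]
    exact ev0_eq_zero_of_isCentredAt (isCentredAt_of_hasValueAt (p * ℓ) hWa hWb)
      (by rw [ev_phiK]; exact r1)
  have e2 : eval2 Φℓ a' b' = 0 := by
    rw [← ev0_phiK]
    exact ev0_eq_zero_of_isCentredAt (isCentredAt_of_hasValueAt (p * ℓ) hWa' hWb')
      (by rw [ev_phiK]; exact r2)
  have e3 : eval2 Φp b b' = 0 := by
    rw [← ev0_phiK]
    exact ev0_eq_zero_of_isCentredAt (isCentredAt_of_hasValueAt (p * ℓ) hWb hWb')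
      (by rw [ev_phiK]; exact r3)
  have hB := val_root_of_isModularShape v hℓ.pos hshℓ hva e1
  have hvb : 1 < v b := by
    rcases hB with h | h
    · rw [h]; exact one_lt_pow₀ hva hℓ.pos.ne'
    · exact one_lt_of_pow_eq hva h
  exact ⟨b, b', hb, hb', hvb, hB, val_root_of_isModularShape v hℓ.pos hshℓ hva' e2,
    val_root_of_isModularShape v hp.pos hshp hvb e3⟩

/-- The residue disc of the cusp `0` propagates along the Hecke correspondence. -/
theorem inDiscZero_restrictAlpha (hp : p.Prime) (hℓ : ℓ.Prime) (hne : ℓ ≠ p)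
    (hα : HeckeAlphaBarIntegral Qb p ℓ) (hβ : HeckeBetaBarIntegral Qb p ℓ)
    (A : ValuationSubring Qb) (W : Place Qb (FB (p * ℓ)))
    (hW : InDiscZero p A (W.restrictAlong (heckeBetaBar Qb p ℓ) hβ)) :
    InDiscZero p A (W.restrictAlong (heckeAlphaBar Qb p ℓ) hα) := by
  obtain ⟨a, a', ha, ha', hva, hrel⟩ := hW
  obtain ⟨b, b', hb, hb', hvb, hB, hC₁, hC₂⟩ := exists_values_alpha p ℓ hp hℓ hα hβ A.valuation W
    ha ha' hva (one_lt_of_pow_eq hva hrel)
  exact ⟨b, b', hb, hb', hvb,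
    val_propagate_zero hp.two_le hℓ.two_le (Ne.symm hne) hva hrel hB hC₁ hC₂⟩

/-- The residue disc of the cusp `∞` propagates along the Hecke correspondence. -/
theorem inDiscInfty_restrictAlpha (hp : p.Prime) (hℓ : ℓ.Prime) (hne : ℓ ≠ p)
    (hα : HeckeAlphaBarIntegral Qb p ℓ) (hβ : HeckeBetaBarIntegral Qb p ℓ)
    (A : ValuationSubring Qb) (W : Place Qb (FB (p * ℓ)))
    (hW : InDiscInfty p A (W.restrictAlong (heckeBetaBar Qb p ℓ) hβ)) :
    InDiscInfty p A (W.restrictAlong (heckeAlphaBar Qb p ℓ) hα) := by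
  obtain ⟨a, a', ha, ha', hva, hrel⟩ := hW
  have hva' : 1 < A.valuation a' := by
    rw [hrel]; exact one_lt_pow₀ hva hp.pos.ne'
  obtain ⟨b, b', hb, hb', hvb, hB, hC₁, hC₂⟩ := exists_values_alpha p ℓ hp hℓ hα hβ A.valuation W
    ha ha' hva hva'
  exact ⟨b, b', hb, hb', hvb,
    val_propagate_infty hp.two_le hℓ.two_le (Ne.symm hne) hva hrel hB hC₁ hC₂⟩

end NonCusp

/-! ### `T_ℓ` on the class of a difference of two places -/

section Divisors

variable (p ℓ : ℕ) [NeZero p] [NeZero ℓ]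

/-- `T_ℓ ((P) - (P₁)) = ∑_{W ∣_β = P} e_β(W) ((W ∣_α) - (P₁))` if `P₁` is fixed by the
correspondence. -/
theorem heckeDivBar_ptDiff (hℓ : ℓ.Prime) (hN : ¬ ℓ ∣ p)
    (hα : HeckeAlphaBarIntegral Qb p ℓ) (hβ : HeckeBetaBarIntegral Qb p ℓ)
    (P P₁ : Place Qb (FB p))
    (hP₁ : ∀ W : Place Qb (FB (p * ℓ)), W.restrictAlong (heckeBetaBar Qb p ℓ) hβ = P₁ →
      W.restrictAlong (heckeAlphaBar Qb p ℓ) hα = P₁) :
    heckeDivBar hα hβ (Finsupp.single P (1 : ℤ) - Finsupp.single P₁ 1) =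
      ∑ W ∈ Place.fiberAlong (heckeBetaBar Qb p ℓ) hβ P,
        (W.ramificationIndexAlong (heckeBetaBar Qb p ℓ) : ℤ) •
          (Finsupp.single (W.restrictAlong (heckeAlphaBar Qb p ℓ) hα) (1 : ℤ) -
            Finsupp.single P₁ 1) := by
  classical
  rw [map_sub, Fermat.Agent.Lib.FF398.heckeDivBar_single p ℓ hα hβ P 1,
    Fermat.Agent.S15.H362.heckeDivBar_single_of_fixed p ℓ hℓ hN hα hβ P₁ hP₁ 1]
  simp only [smul_sub, Finsupp.smul_single, smul_eq_mul, mul_one, one_mul]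
  rw [Finset.sum_sub_distrib, ← Finsupp.single_finsetSum,
    Fermat.Agent.Lib.FF398.sum_ramificationIndexAlong_beta p ℓ hβ P,
    Fermat.Agent.S37.H218.finrankAlong_heckeBetaBar_of_not_dvd p ℓ hℓ hN]
  push_cast
  rfl

end Divisors

section Classes

variable (p : ℕ) [NeZero p]

/-- `T_ℓ cl((P) - (P₁)) ∈ H` as soon as `cl((W ∣_α) - (P₁)) ∈ H` for all `W` over `P` along `β`
(`P₁` fixed by the correspondence). -/
theorem heckeOperatorBar_diffClass_mem (ℓ : Nat.Primes) (hN : ¬ (ℓ : ℕ) ∣ p)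
    (H : AddSubgroup (JZero p)) (P P₁ : Place Qb (FB p))
    (hP₁ : haveI : NeZero (ℓ : ℕ) := ⟨ℓ.2.ne_zero⟩
      ∀ W : Place Qb (FB (p * ℓ)),
        W.restrictAlong (heckeBetaBar Qb p ℓ) (Fermat.Agent.Lib.FF398.heckeBetaBarIntegral p ℓ)
          = P₁ →
        W.restrictAlong (heckeAlphaBar Qb p ℓ) (Fermat.Agent.Lib.FF398.heckeAlphaBarIntegral p ℓ)
          = P₁)
    (hmem : haveI : NeZero (ℓ : ℕ) := ⟨ℓ.2.ne_zero⟩
      ∀ W : Place Qb (FB (p * ℓ)),
        W.restrictAlong (heckeBetaBar Qb p ℓ) (Fermat.Agent.Lib.FF398.heckeBetaBarIntegral p ℓ)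
          = P →
        ∀ z : JZero p, IsDiffClass
          (W.restrictAlong (heckeAlphaBar Qb p ℓ)
            (Fermat.Agent.Lib.FF398.heckeAlphaBarIntegral p ℓ)) P₁ z → z ∈ H)
    (z : JZero p) (hz : IsDiffClass P P₁ z) : heckeOperatorBar p ℓ z ∈ H := by
  classical
  haveI : NeZero (ℓ : ℕ) := ⟨ℓ.2.ne_zero⟩
  obtain ⟨h, rfl⟩ := hz
  rw [Fermat.Agent.Lib.FF398.heckeOperatorBar_mk p ℓ]
  set hα := Fermat.Agent.Lib.FF398.heckeAlphaBarIntegral p ℓ with hαdef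
  set hβ := Fermat.Agent.Lib.FF398.heckeBetaBarIntegral p ℓ with hβdef
  have hdeg : ∀ W : Place Qb (FB (p * ℓ)),
      (Finsupp.single (W.restrictAlong (heckeAlphaBar Qb p ℓ) hα) (1 : ℤ) - Finsupp.single P₁ 1 :
        Divisor Qb (FB p)) ∈ Divisor.degZero (K := Qb) (F := FB p) := fun W => by
    rw [Divisor.mem_degZero, map_sub, Divisor.degree_single, Divisor.degree_single,
      Fermat.Agent.Lib.FF398.deg_eq_one_FF p, Fermat.Agent.Lib.FF398.deg_eq_one_FF p, sub_self]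
  have key : Pic0.degZeroCorrespondence (heckeBetaBar Qb p ℓ) (heckeAlphaBar Qb p ℓ) hβ hα
      (Fermat.Agent.Lib.FF398.fundamentalIdentityAlong_beta p ℓ)
      ⟨Finsupp.single P (1 : ℤ) - Finsupp.single P₁ 1, h⟩ =
      ∑ W ∈ Place.fiberAlong (heckeBetaBar Qb p ℓ) hβ P,
        (W.ramificationIndexAlong (heckeBetaBar Qb p ℓ) : ℤ) •
          (⟨_, hdeg W⟩ : Divisor.degZero (K := Qb) (F := FB p)) := by
    apply Subtype.ext
    rw [AddSubgroup.val_finsetSum]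
    exact heckeDivBar_ptDiff p ℓ ℓ.2 hN hα hβ P P₁ hP₁
  rw [key]
  have hmk : ∀ D : Divisor.degZero (K := Qb) (F := FB p),
      Pic0.mk D = QuotientAddGroup.mk' _ D := fun _ => rfl
  rw [hmk, map_sum]
  refine H.sum_mem fun W hW => ?_
  rw [map_zsmul]
  exact H.zsmul_mem (hmem W (Place.mem_fiberAlong.mp hW) _ ⟨hdeg W, rfl⟩) _

end Classes

/-! ### The theorem -/

/-- **GEO-PARTS (a), PROPAGATION.** -/
theorem propagation (p : ℕ) [NeZero p] : PropagationStatement p := by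
  intro hp A P₀ hP₀ ℓ hℓp
  haveI : NeZero (ℓ : ℕ) := ⟨ℓ.2.ne_zero⟩
  have hN : ¬ (ℓ : ℕ) ∣ p := Fermat.Agent.S15.H362.not_dvd_of_prime_ne hp ℓ.2 hℓp
  -- the cusp `0`
  have hP₀eq : P₀ = Fermat.Agent.S15.H362.cuspZero p := by
    obtain ⟨h1, h2⟩ := hP₀
    have h3 : P₀.ord (Fermat.Agent.S15.H362.jBar p) < 0 := h2
    rcases Fermat.Agent.S15.H362.eq_cusp_of_ord_jBar_neg p hp P₀ h3 with e | e
    · rw [Fermat.Agent.S15.H362.cuspInfty_eq_core] at e
      exact absurd e h1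
    · exact e
  have hle : discK p A P₀ ≤ (discK p A P₀).comap (heckeOperatorBar p ℓ).toAddMonoidHom := by
    refine discK_le ?_ ?_
    · intro P z hP hz
      refine heckeOperatorBar_diffClass_mem p ℓ hN (discK p A P₀) P P₀ ?_ ?_ z hz
      · rw [hP₀eq]
        exact Fermat.Agent.S15.H362.restrictAlpha_cuspZero p ℓ hp ℓ.2 hℓp _ _
      · intro W hW z' hz'
        refine mem_discK_of_inDiscZero ?_ hz'
        exact inDiscZero_restrictAlpha p ℓ hp ℓ.2 hℓp _ _ A W (by rw [hW]; exact hP)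
    · intro P z hP hz
      refine heckeOperatorBar_diffClass_mem p ℓ hN (discK p A P₀) P (cuspInfty p) ?_ ?_ z hz
      · rw [← Fermat.Agent.S15.H362.cuspInfty_eq_core]
        exact Fermat.Agent.S15.H362.restrictAlpha_cuspInfty p ℓ hp ℓ.2 hℓp _ _
      · intro W hW z' hz'
        refine mem_discK_of_inDiscInfty ?_ hz'
        exact inDiscInfty_restrictAlpha p ℓ hp ℓ.2 hℓp _ _ A W (by rw [hW]; exact hP)
  intro z hz
  exact hle hz

/-- (a) in the form consumed by `GeoPartsStatement`: `K` is stable under `goodHecke p S`. -/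
theorem discK_goodHecke_stable (p : ℕ) [NeZero p] (hp : p.Prime)
    (A : ValuationSubring Qb) (P₀ : Place Qb (FB p)) (hP₀ : IsCuspZero p P₀) (S : Set ℕ) :
    ∀ T ∈ goodHecke p S, ∀ z ∈ discK p A P₀, T z ∈ discK p A P₀ :=
  goodHecke_stable_of_propagation p (propagation p) hp A P₀ hP₀ S

end Fermat.Agent.S15.H962

end
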