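import Fermat.Agent.S15.Core.Top
import Fermat.Agent.S15.H542.ModSpec

/-!
# Row S15, node GEO-PARTS (helper962): the subgroup `K` — FROZEN DEFINITIONS

`GeoPartsStatement p` (`H962/IterRed.lean`) asks, at every multiplicative prime `q ≠ p` and every
place `A ∣ q` of `ℚ̄`, for a subgroup `K` of `J₀(p)` with

* (a) `T K ⊆ K` for the Hecke operators `T_ℓ`, `ℓ ≠ p`;
* (b) `sp₀ = 0` on `K`;
* (c) `D ∈ K` if `Q ∉ E⁰`, `D + c ∈ K` if `Q ∈ E⁰`.

This file fixes `K := discK p A P₀` once and for all (`v = A.valuation`, multiplicative notation):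

* `InDiscZero p A P`  : `P` has values `j(P) = a`, `j_p(P) = a'` with `1 < v a`, `(v a')^p = v a`
  (the residue disc of the cusp `0`, the cusp itself excluded);
* `InDiscInfty p A P` : the same with `v a' = (v a)^p` (the residue disc of the cusp `∞`);
* `discGens p A P₀`   : the classes `cl((P) - (P₀))`, `P` in the first disc, and
  `cl((P) - (∞))`, `P` in the second disc;
* `discK p A P₀`      : the subgroup of `J₀(p)` generated by them.

Values are `H542.HasValueAt` (`0 < ord_P (f - a)`), functions are `H542.jBar p`, `H542.jNBar p`.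
The three statements (a), (b), (c) for this `K` are `PropagationStatement`, `KilledStatement`
(per specialisation map) and helper542's DISC.
-/

set_option autoImplicit false

noncomputable section

open AlgebraicCurve ModularCurve

namespace Fermat.Agent.S15.H962

open Fermat.Agent.S15.Core Fermat.Agent.S15.H542

variable (p : ℕ) [NeZero p]

/-- The residue disc of the cusp `0` at `A` (cusp excluded): `j(P) = a`, `j_p(P) = a'`,
`1 < v a`, `(v a')^p = v a`. -/
def InDiscZero (A : ValuationSubring (AlgebraicClosure ℚ))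
    (P : Place (AlgebraicClosure ℚ) (modularFunctionFieldBar p)) : Prop :=
  ∃ a a' : AlgebraicClosure ℚ, HasValueAt P (H542.jBar p) a ∧ HasValueAt P (jNBar p) a' ∧
    1 < A.valuation a ∧ A.valuation a' ^ p = A.valuation a

/-- The residue disc of the cusp `∞` at `A` (cusp excluded): `j(P) = a`, `j_p(P) = a'`,
`1 < v a`, `v a' = (v a)^p`. -/
def InDiscInfty (A : ValuationSubring (AlgebraicClosure ℚ))
    (P : Place (AlgebraicClosure ℚ) (modularFunctionFieldBar p)) : Prop :=
  ∃ a a' : AlgebraicClosure ℚ, HasValueAt P (H542.jBar p) a ∧ HasValueAt P (jNBar p) a' ∧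
    1 < A.valuation a ∧ A.valuation a' = A.valuation a ^ p

/-- The generators of `K`. -/
def discGens (A : ValuationSubring (AlgebraicClosure ℚ))
    (P₀ : Place (AlgebraicClosure ℚ) (modularFunctionFieldBar p)) : Set (JZero p) :=
  {z | ∃ P, InDiscZero p A P ∧ IsDiffClass P P₀ z} ∪
    {z | ∃ P, InDiscInfty p A P ∧ IsDiffClass P (cuspInfty p) z}

/-- **The subgroup `K`** of GEO-PARTS. -/
def discK (A : ValuationSubring (AlgebraicClosure ℚ))
    (P₀ : Place (AlgebraicClosure ℚ) (modularFunctionFieldBar p)) : AddSubgroup (JZero p) :=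
  AddSubgroup.closure (discGens p A P₀)

variable {p}

theorem mem_discK_of_inDiscZero {A : ValuationSubring (AlgebraicClosure ℚ)}
    {P₀ P : Place (AlgebraicClosure ℚ) (modularFunctionFieldBar p)} {z : JZero p}
    (hP : InDiscZero p A P) (hz : IsDiffClass P P₀ z) : z ∈ discK p A P₀ :=
  AddSubgroup.subset_closure (Or.inl ⟨P, hP, hz⟩)

theorem mem_discK_of_inDiscInfty {A : ValuationSubring (AlgebraicClosure ℚ)}
    {P₀ P : Place (AlgebraicClosure ℚ) (modularFunctionFieldBar p)} {z : JZero p}
    (hP : InDiscInfty p A P) (hz : IsDiffClass P (cuspInfty p) z) : z ∈ discK p A P₀ :=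
  AddSubgroup.subset_closure (Or.inr ⟨P, hP, hz⟩)

/-- A subgroup property holds on `K` as soon as it holds on the generators. -/
theorem discK_le {A : ValuationSubring (AlgebraicClosure ℚ)}
    {P₀ : Place (AlgebraicClosure ℚ) (modularFunctionFieldBar p)} {H : AddSubgroup (JZero p)}
    (h₀ : ∀ P z, InDiscZero p A P → IsDiffClass P P₀ z → z ∈ H)
    (hInf : ∀ P z, InDiscInfty p A P → IsDiffClass P (cuspInfty p) z → z ∈ H) :
    discK p A P₀ ≤ H := by
  refine (AddSubgroup.closure_le H).mpr ?_
  rintro z (⟨P, hP, hz⟩ | ⟨P, hP, hz⟩)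
  · exact h₀ P z hP hz
  · exact hInf P z hP hz

variable (p)

/-- **GEO-PARTS (a), PROPAGATION**: `K` is stable under every `T_ℓ`, `ℓ ≠ p`
(any valuation ring `A` of `ℚ̄`, no condition on the residue characteristic). -/
def PropagationStatement : Prop :=
  p.Prime → ∀ (A : ValuationSubring (AlgebraicClosure ℚ))
    (P₀ : Place (AlgebraicClosure ℚ) (modularFunctionFieldBar p)), IsCuspZero p P₀ →
    ∀ ℓ : Nat.Primes, (ℓ : ℕ) ≠ p → ∀ z ∈ discK p A P₀, heckeOperatorBar p ℓ z ∈ discK p A P₀

/-- (a) in the form consumed by `GeoPartsStatement`. -/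
theorem goodHecke_stable_of_propagation (h : PropagationStatement p) (hp : p.Prime)
    (A : ValuationSubring (AlgebraicClosure ℚ))
    (P₀ : Place (AlgebraicClosure ℚ) (modularFunctionFieldBar p)) (hP₀ : IsCuspZero p P₀)
    (S : Set ℕ) : ∀ T ∈ goodHecke p S, ∀ z ∈ discK p A P₀, T z ∈ discK p A P₀ := by
  rintro T ⟨ℓ, hℓp, -, rfl⟩ z hz
  exact h hp A P₀ hP₀ ℓ hℓp z hz

/-- **GEO-PARTS (b), IDENTIFICATION**, for one specialisation map `sp₀`: `sp₀` kills `K` as soon
as it kills the classes of the differences of two places in the same residue disc. -/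
def KilledBy {X : Type} [AddCommGroup X] (A : ValuationSubring (AlgebraicClosure ℚ))
    (P₀ : Place (AlgebraicClosure ℚ) (modularFunctionFieldBar p)) (sp₀ : JZero p →+ X) : Prop :=
  ∀ z ∈ discK p A P₀, sp₀ z = 0

variable {p}

theorem killedBy_of_gens {X : Type} [AddCommGroup X]
    {A : ValuationSubring (AlgebraicClosure ℚ)}
    {P₀ : Place (AlgebraicClosure ℚ) (modularFunctionFieldBar p)} {sp₀ : JZero p →+ X}
    (h₀ : ∀ P z, InDiscZero p A P → IsDiffClass P P₀ z → sp₀ z = 0)
    (hInf : ∀ P z, InDiscInfty p A P → IsDiffClass P (cuspInfty p) z → sp₀ z = 0) :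
    KilledBy p A P₀ sp₀ := by
  intro z hz
  have : discK p A P₀ ≤ sp₀.ker := discK_le (fun P z hP hz => h₀ P z hP hz)
    (fun P z hP hz => hInf P z hP hz)
  exact this hz

end Fermat.Agent.S15.H962

end
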