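import Fermat.Agent.S15.H962.GeoProp

/-!
# Row S15, node GEO-PARTS (b), level-`p` fibre facts (helper962)

Facts on the places of `X₀(p)` in the residue discs of the cusps, for the identification step
(b) (`sp₀` kills `discK`):

* `big_root_unique` : for `Φ` of modular shape and `1 < v a`, the root `b` of `Φ(a, Y)` with
  `v b = (v a)^N` is unique;
* `fibre_jNBar_of_inDiscZero` (F0) : `P` in the disc of `0` with values `(a, a')`; a place `P'` with
  `j_p(P') = a'` is `P` or lies in the disc of `∞`;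
* `fibre_jBar_of_inDiscInfty` (F∞) : `P` in the disc of `∞`; a place `P'` with `j(P') = a` is `P` or
  lies in the disc of `0`;
* `ord_jNBar_sub_const_*`, `ord_jBar_sub_const_*` : the orders of `j_p - c`, `j - c` at the cusps;
* `val_ratio_of_inDiscInfty`, `val_ratio_of_inDiscZero` : `v(a' / a^p) = 1`, resp. `< 1`.
-/

set_option autoImplicit false
set_option synthInstance.maxHeartbeats 400000
set_option linter.style.haveILetI false

noncomputable section

open AlgebraicCurve ModularCurve HahnSeries Polynomial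

namespace Fermat.Agent.S15.H962

open Fermat.Agent.S15.Core Fermat.Agent.S15.H542
open Fermat.Agent.S15.H362 (Qb FB)

/-! ### Uniqueness of the big root -/

section BigRoot

variable {K : Type*} [Field K] {Γ₀ : Type*} [LinearOrderedCommGroupWithZero Γ₀]
  (v : Valuation K Γ₀)

/-- **The big root is unique.** -/
theorem big_root_unique [IsAlgClosed K] {N : ℕ} (hN : 1 < N) {Φ : ℤ[X][X]}
    (hΦ : IsModularShape N Φ) {a b₁ b₂ : K} (ha : 1 < v a)
    (h₁ : eval2 Φ a b₁ = 0) (h₂ : eval2 Φ a b₂ = 0)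
    (hb₁ : v b₁ = v a ^ N) (hb₂ : v b₂ = v a ^ N) : b₁ = b₂ := by
  classical
  by_contra hne
  have hN0 : 0 < N := by omega
  set f := phiSpec Φ a with hf
  have hf_monic : f.Monic := phiSpec_monic hΦ.monic a
  have hf0 : f ≠ 0 := hf_monic.ne_zero
  have hr₁ : b₁ ∈ f.roots := by
    rw [Polynomial.mem_roots hf0, IsRoot, hf, eval_phiSpec]; exact h₁
  have hr₂ : b₂ ∈ f.roots := by
    rw [Polynomial.mem_roots hf0, IsRoot, hf, eval_phiSpec]; exact h₂
  have hsplit : f.Splits := IsAlgClosed.splits f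
  have hprod : f.coeff 0 = (-1) ^ f.natDegree * f.roots.prod :=
    hsplit.coeff_zero_eq_prod_roots_of_monic hf_monic
  have hc0 : v (f.coeff 0) = v a ^ (N + 1) := by
    rw [hf, phiSpec_coeff_zero]
    exact val_eval_eq v ha (Φ.coeff 0) hΦ.coeff_zero_natDegree hΦ.coeff_zero_unit
  have hroots : ∀ r ∈ f.roots, 1 ≤ v r := by
    intro r hr
    have hr0 : eval2 Φ a r = 0 := by
      rw [← eval_phiSpec]
      exact (Polynomial.mem_roots hf0).mp hr
    rcases val_root_of_isModularShape v hN0 hΦ ha hr0 with h1 | h1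
    · rw [h1]; exact (one_lt_pow₀ ha hN0.ne').le
    · exact (one_lt_of_pow_eq ha h1).le
  obtain ⟨t, ht⟩ := Multiset.exists_cons_of_mem hr₁
  have hr₂' : b₂ ∈ t := by
    rw [ht, Multiset.mem_cons] at hr₂
    rcases hr₂ with h | h
    · exact absurd h.symm hne
    · exact h
  obtain ⟨t', ht'⟩ := Multiset.exists_cons_of_mem hr₂'
  have hprod2 : f.roots.prod = b₁ * (b₂ * t'.prod) := by
    rw [ht, Multiset.prod_cons, ht', Multiset.prod_cons]
  have ht1 : 1 ≤ v t'.prod := by
    refine one_le_val_multiset_prod v t' fun r hr => hroots r ?_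
    rw [ht, ht']
    exact Multiset.mem_cons_of_mem (Multiset.mem_cons_of_mem hr)
  have hval : v (f.coeff 0) = v a ^ (2 * N) * v t'.prod := by
    rw [hprod, hprod2, map_mul, map_pow, Valuation.map_neg, map_one, one_pow, one_mul, map_mul,
      map_mul, hb₁, hb₂, ← mul_assoc, ← _root_.pow_add, two_mul]
  rw [hc0] at hval
  have hlt : v a ^ (N + 1) < v a ^ (2 * N) := pow_lt_pow_right₀ ha (by omega)
  have hle : v a ^ (2 * N) ≤ v a ^ (2 * N) * v t'.prod := by
    calc v a ^ (2 * N) = v a ^ (2 * N) * 1 := (mul_one _).symm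
      _ ≤ v a ^ (2 * N) * v t'.prod := mul_le_mul' le_rfl ht1
  rw [← hval] at hle
  exact absurd hlt (not_lt.mpr hle)

end BigRoot

/-! ### Values at non-cuspidal places of `X₀(p)` -/

section Values

variable (p : ℕ) [NeZero p]

/-- A place at which `j_p` is regular is not a pole of `j`. -/
theorem ord_jBar_nonneg_of_ord_jNBar_nonneg (hp : p.Prime) (P : Place Qb (FB p))
    (h : 0 ≤ P.ord (jNBar p)) : 0 ≤ P.ord (H542.jBar p) := by
  by_contra hlt
  rw [not_le] at hlt
  have e1 : H542.jBar p = Fermat.Agent.S15.H362.jBar p := rfl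
  have e2 : jNBar p = Fermat.Agent.S15.H362.jLevelBar p := rfl
  rw [e1] at hlt
  rw [e2] at h
  have hp0 : (0 : ℤ) < p := by exact_mod_cast hp.pos
  rcases Fermat.Agent.S15.H362.eq_cusp_of_ord_jBar_neg p hp P hlt with e | e
  · rw [e, Fermat.Agent.S15.H362.ord_cuspInfty_jLevelBar] at h
    omega
  · rw [e, Fermat.Agent.S15.H362.ord_cuspZero_jLevelBar] at h
    omega

/-- A place at which `j` is regular is not a pole of `j_p`. -/
theorem ord_jNBar_nonneg_of_ord_jBar_nonneg (hp : p.Prime) (P : Place Qb (FB p))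
    (h : 0 ≤ P.ord (H542.jBar p)) : 0 ≤ P.ord (jNBar p) := by
  by_contra hlt
  rw [not_le] at hlt
  have e1 : H542.jBar p = Fermat.Agent.S15.H362.jBar p := rfl
  have e2 : jNBar p = Fermat.Agent.S15.H362.jLevelBar p := rfl
  rw [e1] at h
  rw [e2] at hlt
  have hp0 : (0 : ℤ) < p := by exact_mod_cast hp.pos
  rcases Fermat.Agent.S15.H362.eq_cusp_of_ord_jLevelBar_neg p hp P hlt with e | e
  · rw [e, Fermat.Agent.S15.H362.ord_cuspInfty_jBar] at h
    omega
  · rw [e, Fermat.Agent.S15.H362.ord_cuspZero_jBar] at h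
    omega

/-- The modular relation at the centre of a place. -/
theorem exists_rel_values (hp : p.Prime) :
    ∃ Φ : ℤ[X][X], IsModularShape p Φ ∧
      ∀ (P : Place Qb (FB p)) (a a' : Qb), HasValueAt P (H542.jBar p) a →
        HasValueAt P (jNBar p) a' → eval2 Φ a a' = 0 ∧ eval2 Φ a' a = 0 := by
  obtain ⟨Φ, hshape, hxy, hyx⟩ := eval2_jBar_jNBar p hp
  refine ⟨Φ, hshape, fun P a a' h1 h2 => ⟨?_, ?_⟩⟩
  · rw [← ev0_phiK]
    exact ev0_eq_zero_of_isCentredAt (isCentredAt_of_hasValueAt p h1 h2)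
      (by rw [ev_phiK]; exact hxy)
  · rw [← ev0_phiK]
    exact ev0_eq_zero_of_isCentredAt (isCentredAt_of_hasValueAt p h2 h1)
      (by rw [ev_phiK]; exact hyx)

/-- **(F0)** The fibre of `j_p` through a place of the disc of `0`. -/
theorem fibre_jNBar_of_inDiscZero (hp : p.Prime) (A : ValuationSubring Qb)
    {P P' : Place Qb (FB p)} {a a' : Qb}
    (ha : HasValueAt P (H542.jBar p) a) (ha' : HasValueAt P (jNBar p) a')
    (hva : 1 < A.valuation a) (hrel : A.valuation a' ^ p = A.valuation a)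
    (hP' : HasValueAt P' (jNBar p) a') : P' = P ∨ InDiscInfty p A P' := by
  obtain ⟨Φ, hshape, hval⟩ := exists_rel_values p hp
  have hva' : 1 < A.valuation a' := one_lt_of_pow_eq hva hrel
  obtain ⟨b, hb⟩ := exists_hasValueAt P'
    (ord_jBar_nonneg_of_ord_jNBar_nonneg p hp P' (ord_nonneg_of_hasValueAt hP'))
    (Fermat.Agent.S15.H602.jBar_sub_ne_zero p)
  obtain ⟨-, e1⟩ := hval P a a' ha ha'
  obtain ⟨-, e2⟩ := hval P' b a' hb hP'
  rcases val_root_of_isModularShape A.valuation hp.pos hshape hva' e2 with h | h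
  · left
    have hab : a = b := big_root_unique A.valuation hp.one_lt hshape hva' e1 e2 hrel.symm h
    rw [← hab] at hb
    exact (place_unique_of_one_lt_val p hp A.valuation hva ha ha' hb hP').symm
  · right
    exact ⟨b, a', hb, hP', one_lt_of_pow_eq hva' h, h.symm⟩

/-- **(F∞)** The fibre of `j` through a place of the disc of `∞`. -/
theorem fibre_jBar_of_inDiscInfty (hp : p.Prime) (A : ValuationSubring Qb)
    {P P' : Place Qb (FB p)} {a a' : Qb}
    (ha : HasValueAt P (H542.jBar p) a) (ha' : HasValueAt P (jNBar p) a')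
    (hva : 1 < A.valuation a) (hrel : A.valuation a' = A.valuation a ^ p)
    (hP' : HasValueAt P' (H542.jBar p) a) : P' = P ∨ InDiscZero p A P' := by
  obtain ⟨Φ, hshape, hval⟩ := exists_rel_values p hp
  obtain ⟨b', hb'⟩ := exists_hasValueAt P'
    (ord_jNBar_nonneg_of_ord_jBar_nonneg p hp P' (ord_nonneg_of_hasValueAt hP'))
    (Fermat.Agent.S15.H602.jNBar_sub_ne_zero p)
  obtain ⟨e1, -⟩ := hval P a a' ha ha'
  obtain ⟨e2, -⟩ := hval P' a b' hP' hb'
  rcases val_root_of_isModularShape A.valuation hp.pos hshape hva e2 with h | h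
  · left
    have hab : a' = b' := big_root_unique A.valuation hp.one_lt hshape hva e1 e2 hrel h
    rw [← hab] at hb'
    exact (place_unique_of_one_lt_val p hp A.valuation hva ha ha' hP' hb').symm
  · right
    exact ⟨a, b', hP', hb', hva, h⟩

/-- A place of the disc of `0` is not in the disc of `∞`. -/
theorem not_inDiscInfty_of_inDiscZero (hp : p.Prime) (A : ValuationSubring Qb)
    {P : Place Qb (FB p)} (h0 : InDiscZero p A P) : ¬ InDiscInfty p A P := by
  rintro ⟨b, b', hb, hb', hvb, hrel'⟩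
  obtain ⟨a, a', ha, ha', hva, hrel⟩ := h0
  have e1 : a = b := Fermat.Agent.S15.H722.HasVal.unique (Or.inr ha) (Or.inr hb)
  have e2 : a' = b' := Fermat.Agent.S15.H722.HasVal.unique (Or.inr ha') (Or.inr hb')
  rw [← e1, ← e2] at hrel'
  rw [hrel', ← pow_mul] at hrel
  have h1 : A.valuation a ^ (p * p) = A.valuation a ^ 1 := by rw [hrel, pow_one]
  have h2 := (pow_eq_pow_iff_of_one_lt hva).mp h1
  have := hp.two_le
  nlinarith

end Values

/-! ### Valuations of the ratio `a' / a ^ p` -/

section Ratio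

variable {p : ℕ} {Γ₀ : Type*} [LinearOrderedCommGroupWithZero Γ₀] (v : Valuation Qb Γ₀)

theorem val_ratio_of_inDiscInfty {a a' : Qb} (hva : 1 < v a) (hrel : v a' = v a ^ p) :
    v (a' / a ^ p) = 1 := by
  have h0 : v a ^ p ≠ 0 := pow_ne_zero _ (ne_of_gt (lt_trans zero_lt_one hva))
  rw [map_div₀, map_pow, hrel, div_self h0]

theorem val_ratio_of_inDiscZero (hp : 2 ≤ p) {a a' : Qb} (hva : 1 < v a)
    (hrel : v a' ^ p = v a) : v (a' / a ^ p) < 1 := by
  have hva' : 1 < v a' := one_lt_of_pow_eq hva hrel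
  have h0 : 0 < v a ^ p := pow_pos (lt_trans zero_lt_one hva) p
  rw [map_div₀, map_pow, div_lt_one₀ h0, ← hrel, ← pow_mul]
  calc v a' = v a' ^ 1 := (pow_one _).symm
    _ < v a' ^ (p * p) := pow_lt_pow_right₀ hva' (by nlinarith)

theorem not_mem_of_one_lt_val (A : ValuationSubring Qb) {a : Qb} (hva : 1 < A.valuation a) :
    a ∉ A := by
  intro h
  exact absurd ((ValuationSubring.valuation_le_one_iff A a).mpr h) (not_le.mpr hva)

end Ratio

end Fermat.Agent.S15.H962

end
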