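import Fermat.Agent.S15.H962.GeoFib
import Fermat.Agent.S15.H722.LevelP
import Fermat.Agent.S37.H868.FullC
import Fermat.Agent.S18.H9.Res

/-!
# Row S15, node GEO-PARTS (b), IDENTIFICATION at level `p` (helper962)

`sp₀ = reductionModL A p` kills the subgroup `K = discK p A P₀`, for every valuation ring `A` of
`ℚ̄` over a prime `q ≠ p` at which the Prelude's reduction inputs exist:

* `zero_pole_of_conservation` : abstract conservation of zeros and poles (`r_* D = E` and equal
  degrees of the zero parts);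
* `zero_pole_j_of_isPlaceReduction` (DEG-J) : ANY place reduction of `X₀(N)` at `q ∤ N` maps zeros
  of `j` to zeros of `j̄` and poles to poles (degrees `ψ(N)` on both fibres, helper868);
* `hasVal_ratio_cuspInfty`, `hasVal_ratio_cuspZero` : `j_p / j^p` is `1` at `∞` and `0` at `0`;
* `placeRed_eq_of_inDisc` : `r P = r 0` on the disc of `0`, `r P = r ∞` on the disc of `∞`
  (helper722's cusp criterion `H722.r_eq_cusp`);
* `killedBy_reductionModL_of_inputs` : **(b) at level `p`**, generic in
  `h : ReductionInputsModL A p`.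
-/

set_option autoImplicit false
set_option synthInstance.maxHeartbeats 400000
set_option linter.style.haveILetI false

noncomputable section

open AlgebraicCurve ModularCurve HahnSeries Polynomial

namespace Fermat.Agent.S15.H962

open Fermat.Agent.S15.Core Fermat.Agent.S15.H542
open Fermat.Agent.S15.H362 (Qb FB)
open Fermat.Agent.S15.H722 (HasVal jF jdF jFk jInvSer coeffMap_jInvSer)
open Fermat.Agent.S18.H725 (mapDomain_nonneg mapDomain_pos)
open Fermat.Agent.Lib.RR

/-! ### Conservation of zeros and poles: the abstract lemma -/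

section Abstract

variable {K F k Fk : Type*} [Field K] [Field F] [Algebra K F] [Field k] [Field Fk] [Algebra k Fk]

/-- The positive part of a divisor. -/
def posPartDiv (D : Divisor K F) : Divisor K F :=
  Finsupp.mapRange (fun n : ℤ => max n 0) (by simp) D

theorem posPartDiv_apply (D : Divisor K F) (P : Place K F) : posPartDiv D P = max (D P) 0 :=
  Finsupp.mapRange_apply (hf := by simp)

theorem posPartDiv_nonneg (D : Divisor K F) (P : Place K F) : 0 ≤ posPartDiv D P := by
  rw [posPartDiv_apply]; exact le_max_right _ _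

theorem posPartDiv_sub_neg (D : Divisor K F) : posPartDiv D - posPartDiv (-D) = D := by
  ext P
  rw [Finsupp.sub_apply, posPartDiv_apply, posPartDiv_apply, Finsupp.neg_apply]
  rcases le_total 0 (D P) with h | h
  · rw [max_eq_left h, max_eq_right (by omega)]; omega
  · rw [max_eq_right h, max_eq_left (by omega)]; omega

theorem degree_posPartDiv (hdeg : ∀ P : Place K F, P.deg = 1) (D : Divisor K F) :
    Divisor.degree (posPartDiv D) = ∑ P ∈ D.support, max (D P) 0 := by
  classical
  rw [Fermat.Agent.S37.H518.degree_eq_sum_of_deg_one _ hdeg]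
  have h1 : ∀ P, posPartDiv D P = max (D P) 0 := posPartDiv_apply D
  rw [Finset.sum_congr rfl fun P _ => h1 P]
  refine Finset.sum_subset ?_ ?_
  · intro P hP
    rw [Finsupp.mem_support_iff, h1] at hP
    rw [Finsupp.mem_support_iff]
    intro h0
    rw [h0] at hP
    simp at hP
  · intro P _ hP
    rw [Finsupp.notMem_support_iff, h1] at hP
    exact hP

/-- Pushforward of divisors along a degree-preserving map of places preserves the degree. -/
theorem degree_mapDomain_h962 {r : Place K F → Place k Fk} (hrdeg : ∀ P, (r P).deg = P.deg)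
    (D : Divisor K F) : Divisor.degree (Finsupp.mapDomain r D) = Divisor.degree D := by
  induction D using Finsupp.induction with
  | zero => simp
  | single_add P n D _ _ ih =>
    rw [Finsupp.mapDomain_add, map_add, map_add, ih, Finsupp.mapDomain_single,
      Divisor.degree_single, Divisor.degree_single, hrdeg]

/-- An effective divisor of degree zero is zero (all places of degree one). -/
theorem eq_zero_of_nonneg_of_degree_zero (hdeg : ∀ P : Place K F, P.deg = 1) {G : Divisor K F}
    (hG : ∀ P, 0 ≤ G P) (h0 : Divisor.degree G = 0) : G = 0 := by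
  classical
  rw [Fermat.Agent.S37.H518.degree_eq_sum_of_deg_one _ hdeg] at h0
  have h1 := (Finset.sum_eq_zero_iff_of_nonneg (fun P _ => hG P)).mp h0
  ext P
  by_cases hP : P ∈ G.support
  · rw [h1 P hP]; rfl
  · rw [Finsupp.notMem_support_iff.mp hP]; rfl

/-- **Conservation of zeros and poles.**  If `r_* D = E` and the zero parts of `D` and `E` have the
same degree, then `r` maps zeros to zeros and poles to poles. -/
theorem zero_pole_of_conservation (r : Place K F → Place k Fk)
    (hdegK : ∀ P : Place K F, P.deg = 1) (hdegk : ∀ Q : Place k Fk, Q.deg = 1)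
    (D : Divisor K F) (E : Divisor k Fk) (hred : ∀ Q, Finsupp.mapDomain r D Q = E Q)
    (hsum : ∑ P ∈ D.support, max (D P) 0 = ∑ Q ∈ E.support, max (E Q) 0) :
    (∀ P, 0 < D P → 0 < E (r P)) ∧ (∀ P, D P < 0 → E (r P) < 0) := by
  classical
  have hrdeg : ∀ P : Place K F, (r P).deg = P.deg := fun P => by rw [hdegK, hdegk]
  have hRD : Finsupp.mapDomain r D = E := Finsupp.ext hred
  have hsplit : Finsupp.mapDomain r (posPartDiv D) - Finsupp.mapDomain r (posPartDiv (-D)) = E := by
    rw [← Finsupp.mapDomain_sub, posPartDiv_sub_neg, hRD]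
  have hnn₁ : ∀ Q, 0 ≤ Finsupp.mapDomain r (posPartDiv D) Q := fun Q =>
    mapDomain_nonneg r _ fun P _ => posPartDiv_nonneg D P
  have hnn₂ : ∀ Q, 0 ≤ Finsupp.mapDomain r (posPartDiv (-D)) Q := fun Q =>
    mapDomain_nonneg r _ fun P _ => posPartDiv_nonneg (-D) P
  have hEQ : ∀ Q, E Q = Finsupp.mapDomain r (posPartDiv D) Q -
      Finsupp.mapDomain r (posPartDiv (-D)) Q := fun Q => by
    rw [← Finsupp.sub_apply, hsplit]
  -- the zero parts agree
  have hG : ∀ Q, 0 ≤ (Finsupp.mapDomain r (posPartDiv D) - posPartDiv E) Q := by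
    intro Q
    rw [Finsupp.sub_apply, posPartDiv_apply, hEQ Q]
    have h1 := hnn₁ Q
    have h2 := hnn₂ Q
    rcases le_total 0 (Finsupp.mapDomain r (posPartDiv D) Q -
      Finsupp.mapDomain r (posPartDiv (-D)) Q) with h | h
    · rw [max_eq_left h]; omega
    · rw [max_eq_right h]; omega
  have hGdeg : Divisor.degree (Finsupp.mapDomain r (posPartDiv D) - posPartDiv E) = 0 := by
    rw [map_sub, degree_mapDomain_h962 hrdeg, degree_posPartDiv hdegK,
      degree_posPartDiv hdegk, hsum, sub_self]
  have hpos : Finsupp.mapDomain r (posPartDiv D) = posPartDiv E :=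
    sub_eq_zero.mp (eq_zero_of_nonneg_of_degree_zero hdegk hG hGdeg)
  have hneg : Finsupp.mapDomain r (posPartDiv (-D)) = posPartDiv (-E) := by
    have h1 : Finsupp.mapDomain r (posPartDiv (-D)) = posPartDiv E - E := by
      rw [← hpos, ← hsplit]; abel
    rw [h1]
    have h2 := posPartDiv_sub_neg E
    generalize posPartDiv E = a at h2 ⊢
    generalize posPartDiv (-E) = b at h2 ⊢
    rw [← h2, sub_sub_cancel]
  constructor
  · intro P hP
    have h1 : 0 < Finsupp.mapDomain r (posPartDiv D) (r P) :=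
      mapDomain_pos r _ (fun P' _ => posPartDiv_nonneg D P') rfl
        (by rw [posPartDiv_apply, max_eq_left hP.le]; exact hP)
    rw [hpos, posPartDiv_apply] at h1
    by_contra hcon
    rw [max_eq_right (by omega)] at h1
    exact lt_irrefl _ h1
  · intro P hP
    have h1 : 0 < Finsupp.mapDomain r (posPartDiv (-D)) (r P) :=
      mapDomain_pos r _ (fun P' _ => posPartDiv_nonneg (-D) P') rfl
        (by rw [posPartDiv_apply, Finsupp.neg_apply, max_eq_left (by omega)]; omega)
    rw [hneg, posPartDiv_apply, Finsupp.neg_apply] at h1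
    by_contra hcon
    rw [max_eq_right (by omega)] at h1
    exact lt_irrefl _ h1

end Abstract

/-! ### Degree preservation for `j` under a place reduction of `X₀(N)` -/

section Modular

variable (N : ℕ) [NeZero N]

/-- **DEG-J.**  A place reduction of `X₀(N)` at a prime `q ∤ N` maps the zeros of `j` to zeros of
`j̄` and the poles of `j` to poles of `j̄`. -/
theorem zero_pole_j_of_isPlaceReduction {q : ℕ} (hq : q.Prime) (hqN : ¬ q ∣ N)
    (A : ValuationSubring Qb) (hA : A.LiesOverPrime q)
    (r : Place Qb (FB N) → Place (IsLocalRing.ResidueField A)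
      (modularFunctionFieldFullC (IsLocalRing.ResidueField A) N))
    (hr : IsPlaceReductionModL A N r) :
    (∀ P : Place Qb (FB N), 0 < P.ord (jF Qb N) →
        0 < (r P).ord (jFk (IsLocalRing.ResidueField A) N)) ∧
      (∀ P : Place Qb (FB N), P.ord (jF Qb N) < 0 →
        (r P).ord (jFk (IsLocalRing.ResidueField A) N) < 0) := by
  classical
  haveI : IsAlgClosed (IsLocalRing.ResidueField A) := Fermat.Agent.S18.H9.resAlgClosed Qb A
  have hchar : ∀ p : ℕ, p.Prime → p ∣ N → ((p : ℕ) : IsLocalRing.ResidueField A) ≠ 0 :=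
    fun p hp hpN => Fermat.Agent.S18.H9.resChar Qb A q p hq hp hA (fun h => hqN (h ▸ hpN))
  -- the integral series `1 / j`
  have hy : coeffMap A.subtype (jInvSer A) ∈
      laurentBaseChange Qb (modularFunctionFieldFull N) := by
    rw [coeffMap_jInvSer]; exact inv_mem (Fermat.Agent.S15.H722.j_mem_F Qb N)
  have hyk : coeffMap (IsLocalRing.residue A) (jInvSer A) ∈
      modularFunctionFieldFullC (IsLocalRing.ResidueField A) N := by
    rw [coeffMap_jInvSer]; exact inv_mem (jqModC_mem_full _ N)
  have hne : coeffMap (IsLocalRing.residue A) (jInvSer A) ≠ 0 := by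
    rw [coeffMap_jInvSer]
    exact inv_ne_zero (Fermat.Agent.S15.H722.jqModC_ne_zero' _)
  set u : FB N := ⟨coeffMap A.subtype (jInvSer A), hy⟩ with hu
  set uk : modularFunctionFieldFullC (IsLocalRing.ResidueField A) N :=
    ⟨coeffMap (IsLocalRing.residue A) (jInvSer A), hyk⟩ with huk
  have hu_inv : u = (jF Qb N)⁻¹ := Subtype.ext (by
    show coeffMap A.subtype (jInvSer A) = ((jF Qb N)⁻¹ : FB N)
    rw [coeffMap_jInvSer]; rfl)
  have huk_inv : uk = (jFk (IsLocalRing.ResidueField A) N)⁻¹ := Subtype.ext (by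
    show coeffMap (IsLocalRing.residue A) (jInvSer A) =
      ((jFk (IsLocalRing.ResidueField A) N)⁻¹ : modularFunctionFieldFullC _ N)
    rw [coeffMap_jInvSer]; rfl)
  have hu0 : u ≠ 0 := by
    rw [hu_inv]; exact inv_ne_zero (Fermat.Agent.S15.H722.jF_ne_zero Qb N)
  have huk0 : uk ≠ 0 := by
    rw [huk_inv]; exact inv_ne_zero (Fermat.Agent.S15.H722.jFk_ne_zero _ N)
  obtain ⟨D₁, hD₁, -⟩ := HasPrincipalDivisors.exists_divisor (K := Qb) u hu0
  haveI := Fermat.Agent.S37.H868.hpd_fullC (IsLocalRing.ResidueField A) N hchar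
  obtain ⟨E₁, hE₁, -⟩ := HasPrincipalDivisors.exists_divisor (K := IsLocalRing.ResidueField A) uk huk0
  have hred : ∀ Q, Finsupp.mapDomain r D₁ Q = E₁ Q := fun Q => by
    rw [hE₁]
    exact hr.2 (jInvSer A) hy hyk hne D₁ hD₁ Q
  have hsum : ∑ P ∈ D₁.support, max (D₁ P) 0 = ∑ Q ∈ E₁.support, max (E₁ Q) 0 := by
    rw [Fermat.Agent.S37.H868.sum_zero_inv_j_bar Qb N u (coeffMap_jInvSer A.subtype) D₁ hD₁,
      Fermat.Agent.S37.H868.sum_zero_inv_j_fullC _ N hchar uk
        (coeffMap_jInvSer (IsLocalRing.residue A)) E₁ hE₁]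
  obtain ⟨h1, h2⟩ := zero_pole_of_conservation r (Fermat.Agent.Lib.FF398.deg_eq_one_FF N)
    (Fermat.Agent.S37.H868.deg_fullC _ N hchar) D₁ E₁ hred hsum
  have hDP : ∀ P : Place Qb (FB N), D₁ P = -P.ord (jF Qb N) := fun P => by
    rw [hD₁, hu_inv, Place.ord_inv]
  have hEQ : ∀ Q : Place (IsLocalRing.ResidueField A) (modularFunctionFieldFullC _ N),
      E₁ Q = -Q.ord (jFk (IsLocalRing.ResidueField A) N) := fun Q => by
    rw [hE₁, huk_inv, Place.ord_inv]
  constructor
  · intro P hP
    have := h2 P (by rw [hDP]; omega)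
    rw [hEQ] at this
    omega
  · intro P hP
    have := h1 P (by rw [hDP]; omega)
    rw [hEQ] at this
    omega

end Modular

/-! ### Series of order `0` with leading coefficient `1` -/

section Monic

theorem isMonicOfOrder_pow {f : LaurentSeries ℚ} {m : ℤ} (hf : IsMonicOfOrder f m) (n : ℕ) :
    IsMonicOfOrder (f ^ n) ((n : ℤ) * m) := by
  induction n with
  | zero =>
    have h := IsMonicOfOrder.single (0 : ℤ)
    simpa using h
  | succ n ih =>
    have h := ih.mul hf
    rw [pow_succ]
    have e : ((n + 1 : ℕ) : ℤ) * m = (n : ℤ) * m + m := by push_cast; ring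
    rw [e]
    exact h

theorem order_sub_one_pos_of_isMonicOfOrder {f : LaurentSeries ℚ} (hf : IsMonicOfOrder f 0)
    (hne : f - 1 ≠ 0) : 0 < (f - 1).order := by
  by_contra hle
  rw [not_lt] at hle
  have hc : (f - 1).coeff (f - 1).order ≠ 0 := fun h => hne (HahnSeries.coeff_order_eq_zero.mp h)
  apply hc
  rw [HahnSeries.coeff_sub]
  rcases lt_or_eq_of_le hle with h | h
  · rw [hf.coeff_of_lt h, HahnSeries.coeff_one, if_neg (ne_of_lt h), sub_zero]
  · rw [h, hf.coeff_self, HahnSeries.coeff_one, if_pos rfl, sub_self]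

end Monic

/-! ### The cusp data of `X₀(p)` in the notation of `H722.r_eq_cusp` -/

section CuspData

variable (p : ℕ) [NeZero p]

theorem jF_eq_jBar : jF Qb p = H542.jBar p := Subtype.ext (coe_jBar_eq p).symm

theorem jdF_eq_jNBar : jdF Qb p (dvd_refl p) = jNBar p := Subtype.ext (coe_jNBar_eq p).symm

/-- `hcusps`: the poles of `j` are the two cusps. -/
theorem cusps_of_ord_jF_neg (hp : p.Prime) (P : Place Qb (FB p)) (h : P.ord (jF Qb p) < 0) :
    P = Fermat.Agent.S15.H362.cuspInfty p ∨ P = Fermat.Agent.S15.H362.cuspZero p := by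
  rw [jF_eq_jBar] at h
  exact Fermat.Agent.S15.H362.eq_cusp_of_ord_jBar_neg p hp P h

/-- `hjd`: the poles of `j_p` are poles of `j`. -/
theorem ord_jF_neg_of_ord_jdF_neg (hp : p.Prime) (P : Place Qb (FB p))
    (h : P.ord (jdF Qb p (dvd_refl p)) < 0) : P.ord (jF Qb p) < 0 := by
  rw [jdF_eq_jNBar] at h
  rw [jF_eq_jBar]
  by_contra hcon
  rw [not_lt] at hcon
  exact absurd (ord_jNBar_nonneg_of_ord_jBar_nonneg p hp P hcon) (not_le.mpr h)

theorem jBar_ne_zero_h962 : H542.jBar p ≠ 0 := by
  have := Fermat.Agent.S15.H602.jBar_sub_ne_zero p 0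
  rwa [map_zero, sub_zero] at this

theorem jNBar_ne_zero_h962 : jNBar p ≠ 0 := by
  have := Fermat.Agent.S15.H602.jNBar_sub_ne_zero p 0
  rwa [map_zero, sub_zero] at this

/-- `h0`: `j_p / j ^ p` vanishes at the cusp `0`. -/
theorem hasVal_ratio_cuspZero (hp : p.Prime) :
    HasVal (Fermat.Agent.S15.H362.cuspZero p) (jdF Qb p (dvd_refl p) / jF Qb p ^ p) 0 := by
  refine Fermat.Agent.S15.H722.hasVal_zero_of_ord_pos ?_
  rw [jF_eq_jBar, jdF_eq_jNBar, div_eq_mul_inv,
    Place.ord_mul _ (jNBar_ne_zero_h962 p) (inv_ne_zero (pow_ne_zero _ (jBar_ne_zero_h962 p))),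
    Place.ord_inv, ord_pow]
  have e1 : H542.jBar p = Fermat.Agent.S15.H362.jBar p := rfl
  have e2 : jNBar p = Fermat.Agent.S15.H362.jLevelBar p := rfl
  rw [e1, e2, Fermat.Agent.S15.H362.ord_cuspZero_jBar, Fermat.Agent.S15.H362.ord_cuspZero_jLevelBar]
  have hp2 : (2 : ℤ) ≤ p := by exact_mod_cast hp.two_le
  nlinarith

/-- `hinf`: `j_p / j ^ p` takes the value `1` at the cusp `∞`. -/
theorem hasVal_ratio_cuspInfty :
    HasVal (Fermat.Agent.S15.H362.cuspInfty p) (jdF Qb p (dvd_refl p) / jF Qb p ^ p) 1 := by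
  by_cases hne : jdF Qb p (dvd_refl p) / jF Qb p ^ p - algebraMap Qb (FB p) 1 = 0
  · exact Or.inl hne
  refine Or.inr ?_
  rw [Fermat.Agent.S15.H362.ord_cuspInfty]
  -- the `q`-expansion comes from `ℚ`
  set u₀ : LaurentSeries ℚ := qExpand ℚ p jq / jq ^ p with hu₀
  have hjq : IsMonicOfOrder jq (-1) := Fermat.Agent.S15.H362.isMonicOfOrder_jq
  have hjqp : IsMonicOfOrder (jq ^ p) ((p : ℤ) * (-1)) := isMonicOfOrder_pow hjq p
  have hqe : IsMonicOfOrder (qExpand ℚ p jq) ((p : ℤ) * (-1)) := hjq.qExpand p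
  have hmul : u₀ * jq ^ p = qExpand ℚ p jq := by
    rw [hu₀, div_mul_cancel₀ _ hjqp.ne_zero]
  have hu : IsMonicOfOrder u₀ 0 := by
    have h := IsMonicOfOrder.of_mul_right (by rw [hmul]; exact hqe) hjqp
    rwa [sub_self] at h
  have hcoe : ((jdF Qb p (dvd_refl p) / jF Qb p ^ p - algebraMap Qb (FB p) 1 : FB p) :
      LaurentSeries Qb) = coeffEmb Qb (u₀ - 1) := by
    have h1 : coeffEmb Qb jq = jqModC Qb := by
      rw [coeffEmb, ← jqModC_rat, coeffMap_jqModC]
    have h2 : coeffEmb Qb (qExpand ℚ p jq) = qExpand Qb p (jqModC Qb) := by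
      rw [coeffEmb, coeffMap_qExpand, ← jqModC_rat, coeffMap_jqModC]
    rw [hu₀, map_sub, map_div₀, map_pow, map_one, h1, h2, map_one]
    rfl
  rw [hcoe, Fermat.Agent.S15.H362.order_coeffEmb]
  refine order_sub_one_pos_of_isMonicOfOrder hu ?_
  intro h0
  apply hne
  apply Subtype.ext
  rw [hcoe, h0, map_zero]
  rfl

end CuspData

/-! ### The identification at level `p` -/

section Ident

variable (p : ℕ) [NeZero p]

theorem residue_eq_zero_of_not_isUnit (A : ValuationSubring Qb) (a : A) (ha : ¬ IsUnit a) :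
    IsLocalRing.residue A a = 0 := by
  rw [IsLocalRing.residue_eq_zero_iff]
  exact (IsLocalRing.mem_maximalIdeal a).mpr ha

/-- **The cusp criterion on the residue discs**: a place reduction with degree preservation for
`j` maps the disc of `0` to `r 0` and the disc of `∞` to `r ∞`. -/
theorem placeRed_eq_of_inDisc (hp : p.Prime) (A : ValuationSubring Qb)
    (r : Place Qb (FB p) → Place (IsLocalRing.ResidueField A)
      (modularFunctionFieldFullC (IsLocalRing.ResidueField A) p))
    (hr : IsPlaceReductionModL A p r)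
    (hzero : ∀ P : Place Qb (FB p), 0 < P.ord (jF Qb p) →
      0 < (r P).ord (jFk (IsLocalRing.ResidueField A) p))
    (hpole : ∀ P : Place Qb (FB p), P.ord (jF Qb p) < 0 →
      (r P).ord (jFk (IsLocalRing.ResidueField A) p) < 0) :
    (∀ P, InDiscZero p A P → r P = r (Fermat.Agent.S15.H362.cuspZero p)) ∧
      (∀ P, InDiscInfty p A P → r P = r (Fermat.Agent.S15.H362.cuspInfty p)) := by
  have key : ∀ (P : Place Qb (FB p)) (a a' : Qb), HasValueAt P (H542.jBar p) a →
      HasValueAt P (jNBar p) a' → 1 < A.valuation a →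
      ∃ h : a' / a ^ p ∈ A,
        (IsUnit (⟨a' / a ^ p, h⟩ : A) → r P = r (Fermat.Agent.S15.H362.cuspInfty p)) ∧
        (¬ IsUnit (⟨a' / a ^ p, h⟩ : A) → r P = r (Fermat.Agent.S15.H362.cuspZero p)) := by
    intro P a a' ha ha' hva
    have h1 : HasVal P (jF Qb p) a := by rw [jF_eq_jBar]; exact Or.inr ha
    have h2 : HasVal P (jdF Qb p (dvd_refl p)) a' := by rw [jdF_eq_jNBar]; exact Or.inr ha'
    exact Fermat.Agent.S15.H722.r_eq_cusp A (IsLocalRing.residue A) p
      (residue_eq_zero_of_not_isUnit A) r hr hzero hpole (dvd_refl p)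
      (cusps_of_ord_jF_neg p hp) (ord_jF_neg_of_ord_jdF_neg p hp)
      (hasVal_ratio_cuspInfty p) (hasVal_ratio_cuspZero p hp) h1 h2
      (not_mem_of_one_lt_val A hva)
  constructor
  · rintro P ⟨a, a', ha, ha', hva, hrel⟩
    obtain ⟨h, -, h0⟩ := key P a a' ha ha' hva
    refine h0 ?_
    rw [ValuationSubring.valuation_eq_one_iff]
    exact ne_of_lt (val_ratio_of_inDiscZero A.valuation hp.two_le hva hrel)
  · rintro P ⟨a, a', ha, ha', hva, hrel⟩
    obtain ⟨h, h1, -⟩ := key P a a' ha ha' hva
    refine h1 ?_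
    rw [ValuationSubring.valuation_eq_one_iff]
    exact val_ratio_of_inDiscInfty A.valuation hva hrel

/-- **GEO-PARTS (b) at level `p`**, generic in the reduction inputs: `reductionModL A p` kills
`discK p A P₀` as soon as the place reduction preserves the zeros and the poles of `j`. -/
theorem killedBy_reductionModL (hp : p.Prime) (A : ValuationSubring Qb)
    (P₀ : Place Qb (FB p)) (hP₀ : IsCuspZero p P₀) (h : ReductionInputsModL A p)
    (hzero : ∀ P : Place Qb (FB p), 0 < P.ord (jF Qb p) →
      0 < (placeReductionModL h P).ord (jFk (IsLocalRing.ResidueField A) p))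
    (hpole : ∀ P : Place Qb (FB p), P.ord (jF Qb p) < 0 →
      (placeReductionModL h P).ord (jFk (IsLocalRing.ResidueField A) p) < 0) :
    KilledBy p A P₀ (reductionModL A p) := by
  obtain ⟨h0, hInf⟩ := placeRed_eq_of_inDisc p hp A (placeReductionModL h)
    (isPlaceReductionModL_placeReductionModL h) hzero hpole
  have hP₀eq : P₀ = Fermat.Agent.S15.H362.cuspZero p := by
    obtain ⟨h1, h2⟩ := hP₀
    have h3 : P₀.ord (Fermat.Agent.S15.H362.jBar p) < 0 := h2
    rcases Fermat.Agent.S15.H362.eq_cusp_of_ord_jBar_neg p hp P₀ h3 with e | e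
    · rw [Fermat.Agent.S15.H362.cuspInfty_eq_core] at e
      exact absurd e h1
    · exact e
  have key : ∀ (P P₁ : Place Qb (FB p)) (z : JZero p),
      placeReductionModL h P = placeReductionModL h P₁ → IsDiffClass P P₁ z →
      reductionModL A p z = 0 := by
    rintro P P₁ z hPP ⟨hd, rfl⟩
    rw [reductionModL_mk h]
    have hz : reductionDegZeroAlong (placeReductionModL h)
        (isPlaceReductionModL_placeReductionModL h).1
        ⟨Finsupp.single P (1 : ℤ) - Finsupp.single P₁ 1, hd⟩ = 0 := by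
      apply Subtype.ext
      rw [coe_reductionDegZeroAlong]
      show Finsupp.mapDomain (placeReductionModL h)
        (Finsupp.single P (1 : ℤ) - Finsupp.single P₁ 1) = 0
      rw [Finsupp.mapDomain_sub, Finsupp.mapDomain_single, Finsupp.mapDomain_single, hPP,
        sub_self]
    rw [hz]
    rfl
  refine killedBy_of_gens ?_ ?_
  · intro P z hP hz
    refine key P P₀ z ?_ hz
    rw [hP₀eq]
    exact h0 P hP
  · intro P z hP hz
    refine key P (cuspInfty p) z ?_ hz
    rw [← Fermat.Agent.S15.H362.cuspInfty_eq_core]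
    exact hInf P hP

end Ident


/-! ### (b) at level `p`, generic in the reduction inputs -/

section Final

variable (p : ℕ) [NeZero p]

/-- **GEO-PARTS (b) at level `p`**: for `A` over a prime `q ≠ p` and ANY reduction inputs at
level `p`, the reduction map `reductionModL A p` kills `discK p A P₀`. -/
theorem killedBy_reductionModL_of_inputs (hp : p.Prime) {q : ℕ} (hq : q.Prime) (hqp : q ≠ p)
    (A : ValuationSubring Qb) (hA : A.LiesOverPrime q)
    (P₀ : Place Qb (FB p)) (hP₀ : IsCuspZero p P₀) (h : ReductionInputsModL A p) :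
    KilledBy p A P₀ (reductionModL A p) := by
  have hqN : ¬ q ∣ p := fun hd => by
    rcases (Nat.dvd_prime hp).mp hd with h1 | h1
    · exact hq.one_lt.ne' h1
    · exact hqp h1
  obtain ⟨hzero, hpole⟩ := zero_pole_j_of_isPlaceReduction p hq hqN A hA (placeReductionModL h)
    (isPlaceReductionModL_placeReductionModL h)
  exact killedBy_reductionModL p hp A P₀ hP₀ h hzero hpole

end Final

end Fermat.Agent.S15.H962

end
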