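import Fermat.Agent.S15.H962.GeoIdent
import Fermat.Agent.S15.H602.IdentSpec

/-!
# Row S15, node GEO-PARTS (b): `IdentBaseStatement` (helper962)

* `zero_pole_j_of_char` (DEG-J, residue-characteristic form): ANY place reduction of `X₀(N)` along
  a valuation ring `A` of `ℚ̄` in whose residue field the prime divisors of `N` are invertible maps
  zeros of `j` to zeros of `j̄` and poles to poles;
* `char_of_cast_ne_zero` : the hypothesis from `(N : k) ≠ 0`;
* `identBase` : **`H602.IdentBaseStatement p`**, verbatim (frozen interface of helper602).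
-/

set_option autoImplicit false
set_option synthInstance.maxHeartbeats 400000
set_option linter.style.haveILetI false

noncomputable section

open AlgebraicCurve ModularCurve HahnSeries Polynomial

namespace Fermat.Agent.S15.H962

open Fermat.Agent.S15.Core Fermat.Agent.S15.H542
open Fermat.Agent.S15.H362 (Qb FB)
open Fermat.Agent.S15.H722 (HasVal jF jdF jFk jInvSer coeffMap_jInvSer)
open Fermat.Agent.Lib.RR

section Modular

variable (N : ℕ) [NeZero N]

omit [NeZero N] in
/-- The prime divisors of `N` are invertible in a field in which `N` is. -/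
theorem char_of_cast_ne_zero {k : Type*} [Field k] (h : ((N : ℕ) : k) ≠ 0) :
    ∀ p : ℕ, p.Prime → p ∣ N → ((p : ℕ) : k) ≠ 0 := by
  rintro p - ⟨m, hm⟩ h0
  apply h
  rw [hm, Nat.cast_mul, h0, zero_mul]

/-- **DEG-J, residue-characteristic form.** -/
theorem zero_pole_j_of_char (A : ValuationSubring Qb)
    (hchar : ∀ p : ℕ, p.Prime → p ∣ N → ((p : ℕ) : IsLocalRing.ResidueField A) ≠ 0)
    (r : Place Qb (FB N) → Place (IsLocalRing.ResidueField A)
      (modularFunctionFieldFullC (IsLocalRing.ResidueField A) N))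
    (hr : IsPlaceReductionModL A N r) :
    (∀ P : Place Qb (FB N), 0 < P.ord (jF Qb N) →
        0 < (r P).ord (jFk (IsLocalRing.ResidueField A) N)) ∧
      (∀ P : Place Qb (FB N), P.ord (jF Qb N) < 0 →
        (r P).ord (jFk (IsLocalRing.ResidueField A) N) < 0) := by
  classical
  haveI : IsAlgClosed (IsLocalRing.ResidueField A) := Fermat.Agent.S18.H9.resAlgClosed Qb A
  -- the integral series `1 / j`
  have hy : coeffMap A.subtype (jInvSer A) ∈
      laurentBaseChange Qb (modularFunctionFieldFull N) := by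
    rw [coeffMap_jInvSer]; exact inv_mem (Fermat.Agent.S15.H722.j_mem_F Qb N)
  have hyk : coeffMap (IsLocalRing.residue A) (jInvSer A) ∈
      modularFunctionFieldFullC (IsLocalRing.ResidueField A) N := by
    rw [coeffMap_jInvSer]; exact inv_mem (jqModC_mem_full _ N)
  have hne : coeffMap (IsLocalRing.residue A) (jInvSer A) ≠ 0 := by
    rw [coeffMap_jInvSer]
    exact inv_ne_zero (Fermat.Agent.S15.H722.jqModC_ne_zero' _)
  set u : FB N := ⟨coeffMap A.subtype (jInvSer A), hy⟩ with hu
  set uk : modularFunctionFieldFullC (IsLocalRing.ResidueField A) N :=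
    ⟨coeffMap (IsLocalRing.residue A) (jInvSer A), hyk⟩ with huk
  have hu_inv : u = (jF Qb N)⁻¹ := Subtype.ext (by
    show coeffMap A.subtype (jInvSer A) = ((jF Qb N)⁻¹ : FB N)
    rw [coeffMap_jInvSer]; rfl)
  have huk_inv : uk = (jFk (IsLocalRing.ResidueField A) N)⁻¹ := Subtype.ext (by
    show coeffMap (IsLocalRing.residue A) (jInvSer A) =
      ((jFk (IsLocalRing.ResidueField A) N)⁻¹ : modularFunctionFieldFullC _ N)
    rw [coeffMap_jInvSer]; rfl)
  have hu0 : u ≠ 0 := by
    rw [hu_inv]; exact inv_ne_zero (Fermat.Agent.S15.H722.jF_ne_zero Qb N)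
  have huk0 : uk ≠ 0 := by
    rw [huk_inv]; exact inv_ne_zero (Fermat.Agent.S15.H722.jFk_ne_zero _ N)
  obtain ⟨D₁, hD₁, -⟩ := HasPrincipalDivisors.exists_divisor (K := Qb) u hu0
  haveI := Fermat.Agent.S37.H868.hpd_fullC (IsLocalRing.ResidueField A) N hchar
  obtain ⟨E₁, hE₁, -⟩ := HasPrincipalDivisors.exists_divisor (K := IsLocalRing.ResidueField A) uk huk0
  have hred : ∀ Q, Finsupp.mapDomain r D₁ Q = E₁ Q := fun Q => by
    rw [hE₁]
    exact hr.2 (jInvSer A) hy hyk hne D₁ hD₁ Q
  have hsum : ∑ P ∈ D₁.support, max (D₁ P) 0 = ∑ Q ∈ E₁.support, max (E₁ Q) 0 := by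
    rw [Fermat.Agent.S37.H868.sum_zero_inv_j_bar Qb N u (coeffMap_jInvSer A.subtype) D₁ hD₁,
      Fermat.Agent.S37.H868.sum_zero_inv_j_fullC _ N hchar uk
        (coeffMap_jInvSer (IsLocalRing.residue A)) E₁ hE₁]
  obtain ⟨h1, h2⟩ := zero_pole_of_conservation r (Fermat.Agent.Lib.FF398.deg_eq_one_FF N)
    (Fermat.Agent.S37.H868.deg_fullC _ N hchar) D₁ E₁ hred hsum
  have hDP : ∀ P : Place Qb (FB N), D₁ P = -P.ord (jF Qb N) := fun P => by
    rw [hD₁, hu_inv, Place.ord_inv]
  have hEQ : ∀ Q : Place (IsLocalRing.ResidueField A) (modularFunctionFieldFullC _ N),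
      E₁ Q = -Q.ord (jFk (IsLocalRing.ResidueField A) N) := fun Q => by
    rw [hE₁, huk_inv, Place.ord_inv]
  constructor
  · intro P hP
    have := h2 P (by rw [hDP]; omega)
    rw [hEQ] at this
    omega
  · intro P hP
    have := h1 P (by rw [hDP]; omega)
    rw [hEQ] at this
    omega

end Modular

section Base

variable (p : ℕ) [NeZero p]

/-- **IDENT at level `p`**, the frozen interface `H602.IdentBaseStatement p`, verbatim. -/
theorem identBase : Fermat.Agent.S15.H602.IdentBaseStatement p := by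
  intro hp _ A hpA r hr P
  obtain ⟨hzero, hpole⟩ := zero_pole_j_of_char p A (char_of_cast_ne_zero p hpA) r hr
  obtain ⟨h0, hInf⟩ := placeRed_eq_of_inDisc p hp A r hr hzero hpole
  refine ⟨fun h => h0 P h, fun h => ?_⟩
  rw [← Fermat.Agent.S15.H362.cuspInfty_eq_core]
  exact hInf P h

end Base

end Fermat.Agent.S15.H962

end
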